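import Fermat.Agent.LubinTate.Torsion.Series
import Mathlib.Algebra.Polynomial.Expand
import Mathlib.Algebra.Polynomial.Div

/-!
# The semilinear equation of Lubin and Tate

For an endomorphism `φ` congruent to the `q`th power modulo `ϖ` a polynomial `θ` with given linear
term solves `f' ∘ θ = θ^φ ∘ f` modulo `(ϖ ^ M, X ^ D)`, where `f = ϖ X + X ^ q` and
`f' = ϖ w X + X ^ q`, as soon as the linear term does; two solutions with congruent linear terms
agree coefficient by coefficient up to a loss of precision bounded by the degree.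
-/

set_option autoImplicit false

noncomputable section

open Polynomial

namespace Fermat.Agent.LubinTate

variable {S : Type*} [CommRing S] {ϖ w : S} {φ : S →+* S} {q : ℕ}

/-- The defect of `θ` in the semilinear equation. -/
def semiDefect (ϖ w : S) (φ : S →+* S) (q : ℕ) (θ : S[X]) : S[X] :=
  (basicPoly (ϖ * w) q).comp θ - (θ.map φ).comp (basicPoly ϖ q)

/-- The polynomials which vanish modulo `(ϖ ^ M, X ^ D)`. -/
def nearIdeal (ϖ : S) (M D : ℕ) : Ideal S[X] :=
  Ideal.span {C (ϖ ^ M)} ⊔ Ideal.span {X ^ D}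

theorem mem_nearIdeal {M D : ℕ} {P : S[X]} :
    P ∈ nearIdeal ϖ M D ↔ ∀ i < D, P.coeff i ∈ Ideal.span {ϖ ^ M} := by
  constructor
  · intro h i hi
    obtain ⟨a, ha, b, hb, rfl⟩ := Submodule.mem_sup.1 h
    obtain ⟨a, rfl⟩ := Ideal.mem_span_singleton'.1 ha
    obtain ⟨b, rfl⟩ := Ideal.mem_span_singleton'.1 hb
    rw [coeff_add, coeff_mul_C, coeff_mul_X_pow', if_neg (by omega), add_zero]
    exact Ideal.mul_mem_left _ _ (Ideal.mem_span_singleton_self _)
  · intro h
    obtain ⟨b, hb⟩ : X ^ D ∣ P - ∑ i ∈ Finset.range D, C (P.coeff i) * X ^ i := by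
      rw [X_pow_dvd_iff]
      intro d hd
      simp [coeff_sub, finsetSum_coeff, hd]
    rw [sub_eq_iff_eq_add'] at hb
    rw [hb]
    refine add_mem (sum_mem fun i hi => ?_)
      (Submodule.mem_sup_right (Ideal.mul_mem_right _ _ (Ideal.mem_span_singleton_self _)))
    obtain ⟨c, hc⟩ := Ideal.mem_span_singleton'.1 (h i (Finset.mem_range.1 hi))
    rw [← hc, map_mul, mul_assoc, mul_left_comm]
    exact Submodule.mem_sup_left (Ideal.mul_mem_right _ _ (Ideal.mem_span_singleton_self _))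

theorem comp_mem_nearIdeal {M D : ℕ} {P Q : S[X]} (hP : P ∈ nearIdeal ϖ M D)
    (hQ : Q.coeff 0 = 0) : P.comp Q ∈ nearIdeal ϖ M D := by
  obtain ⟨a, ha, b, hb, rfl⟩ := Submodule.mem_sup.1 hP
  obtain ⟨a, rfl⟩ := Ideal.mem_span_singleton'.1 ha
  obtain ⟨b, rfl⟩ := Ideal.mem_span_singleton'.1 hb
  obtain ⟨R, rfl⟩ := X_dvd_iff.2 hQ
  simp only [add_comp, mul_comp, C_comp, X_comp, pow_comp, mul_pow]
  exact add_mem (Submodule.mem_sup_left (Ideal.mul_mem_left _ _ (Ideal.mem_span_singleton_self _)))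
    (Submodule.mem_sup_right (Ideal.mul_mem_left _ _ (Ideal.mul_mem_right _ _
      (Ideal.mem_span_singleton_self _))))

theorem comp_sub_comp_mem {I : Ideal S[X]} (P : S[X]) {A B : S[X]} (h : A - B ∈ I) :
    P.comp A - P.comp B ∈ I := by
  obtain ⟨c, hc⟩ := Polynomial.sub_dvd_eval_sub A B (P.map C)
  rw [eval_map, eval_map] at hc
  rw [comp, comp, hc]
  exact I.mul_mem_right _ h

theorem map_mem_nearIdeal (hϖ : φ ϖ = ϖ) {M D : ℕ} {P : S[X]} (hP : P ∈ nearIdeal ϖ M D) :
    P.map φ ∈ nearIdeal ϖ M D := by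
  rw [mem_nearIdeal] at hP ⊢
  intro i hi
  obtain ⟨c, hc⟩ := Ideal.mem_span_singleton'.1 (hP i hi)
  rw [coeff_map, ← hc, map_mul, map_pow, hϖ]
  exact Ideal.mul_mem_left _ _ (Ideal.mem_span_singleton_self _)

/-- The defect is divisible by `ϖ`. -/
theorem coeff_semiDefect_mem (hp : ∃ p r : ℕ, p.Prime ∧ q = p ^ r ∧ (p : S) ∈ Ideal.span {ϖ})
    (hcong : ∀ a, φ a - a ^ q ∈ Ideal.span {ϖ}) (θ : S[X]) (i : ℕ) :
    (semiDefect ϖ w φ q θ).coeff i ∈ Ideal.span {ϖ} := by
  obtain ⟨p, r, hpp, hq, hpπ⟩ := hp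
  rw [← Ideal.Quotient.eq_zero_iff_mem, ← coeff_map]
  set ρ := Ideal.Quotient.mk (Ideal.span {ϖ})
  rcases subsingleton_or_nontrivial (S ⧸ Ideal.span {ϖ}) with h | h
  · exact Subsingleton.elim _ _
  have := Fact.mk hpp
  have : CharP (S ⧸ Ideal.span {ϖ}) p := (CharP.charP_iff_prime_eq_zero hpp).2 (by
    rw [← map_natCast ρ]; exact Ideal.Quotient.eq_zero_iff_mem.2 hpπ)
  have : ExpChar (S ⧸ Ideal.span {ϖ}) p := .prime hpp
  have hρ : ρ ϖ = 0 := Ideal.Quotient.eq_zero_iff_mem.2 (Ideal.mem_span_singleton_self ϖ)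
  have hmap : (θ.map φ).map ρ = (θ.map ρ).map (iterateFrobenius (S ⧸ Ideal.span {ϖ}) p r) := by
    ext j
    simp only [coeff_map, iterateFrobenius_def, ← hq, ← map_pow]
    exact (Ideal.Quotient.mk_eq_mk_iff_sub_mem _ _).2 (hcong _)
  rw [semiDefect, Polynomial.map_sub, map_comp, map_comp, hmap, basicPoly, basicPoly]
  simp only [Polynomial.map_add, Polynomial.map_pow, map_X, Polynomial.map_mul, map_C, map_mul,
    hρ, zero_mul, add_zero, C_0, pow_comp, X_comp]
  rw [← expand_eq_comp_X_pow, hq]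
  rw [← map_expand, map_iterateFrobenius_expand, sub_self, coeff_zero]

theorem exists_pow_sub_pow_eq (hq : 2 ≤ q) {A B : S[X]} (hA : X ∣ A) (hB : X ∣ B) :
    ∃ Y, A ^ q - B ^ q = (A - B) * (X * Y) := by
  obtain ⟨Y, hY⟩ : X ∣ ∑ j ∈ Finset.range q, A ^ j * B ^ (q - 1 - j) := by
    refine Finset.dvd_sum fun j hj => ?_
    rcases Nat.eq_zero_or_pos j with rfl | hj0
    · exact (dvd_pow hB (by omega)).mul_left _
    · exact (dvd_pow hA hj0.ne').mul_right _
  exact ⟨Y, by rw [← geom_sum₂_mul, hY, mul_comm]⟩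

/-- The change of the defect in degree `i` when the coefficient of degree `i` changes. -/
theorem coeff_semiDefect_add (hq : 2 ≤ q) {i : ℕ} (hi : 1 ≤ i) (θ : S[X]) (hθ : θ.coeff 0 = 0)
    (c : S) :
    (∀ j < i, (semiDefect ϖ w φ q (θ + C c * X ^ i)).coeff j =
      (semiDefect ϖ w φ q θ).coeff j) ∧
      (semiDefect ϖ w φ q (θ + C c * X ^ i)).coeff i =
        (semiDefect ϖ w φ q θ).coeff i + ϖ * w * c - φ c * ϖ ^ i := by
  obtain ⟨Y, hY⟩ := exists_pow_sub_pow_eq hq (A := θ + C c * X ^ i) (B := θ)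
    (X_dvd_iff.2 (by simp [hθ, coeff_X_pow, show 0 ≠ i by omega])) (X_dvd_iff.2 hθ)
  rw [add_sub_cancel_left] at hY
  have hkey : semiDefect ϖ w φ q (θ + C c * X ^ i) = semiDefect ϖ w φ q θ +
      X ^ i * (C (ϖ * w * c) + C c * (X * Y) -
        C (φ c) * (X ^ (q - 1) + C ϖ) ^ i) := by
    rw [semiDefect, semiDefect, Polynomial.map_add, add_comp, Polynomial.map_mul, map_C,
      Polynomial.map_pow, map_X, mul_comp, C_comp, pow_comp, X_comp]
    simp only [basicPoly, add_comp, mul_comp, pow_comp, X_comp, C_comp]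
    have hxi : (X ^ q + C ϖ * X : S[X]) ^ i = X ^ i * (X ^ (q - 1) + C ϖ) ^ i := by
      rw [← mul_pow, mul_add, ← pow_succ', show q - 1 + 1 = q by omega, mul_comm X (C ϖ)]
    rw [hxi, map_mul, map_mul, map_mul]
    linear_combination hY
  rw [hkey]
  refine ⟨fun j hj => ?_, ?_⟩
  · rw [coeff_add, coeff_X_pow_mul', if_neg (by omega), add_zero]
  · rw [coeff_add, coeff_X_pow_mul', if_pos le_rfl, Nat.sub_self, coeff_sub, coeff_add,
      coeff_C_zero, mul_coeff_zero, mul_coeff_zero, mul_coeff_zero, coeff_X_zero]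
    simp only [coeff_zero_eq_eval_zero, eval_pow, eval_add, eval_X, eval_C,
      zero_pow (show q - 1 ≠ 0 by omega), zero_add]
    ring

/-- **Existence**: any admissible linear term extends to an approximate solution. -/
theorem exists_semilinear (hq : 2 ≤ q) (hϖ : φ ϖ = ϖ) (hw : IsUnit w)
    (hp : ∃ p r : ℕ, p.Prime ∧ q = p ^ r ∧ (p : S) ∈ Ideal.span {ϖ})
    (hcong : ∀ a, φ a - a ^ q ∈ Ideal.span {ϖ}) (M D : ℕ) {ε : S}
    (hε : w * ε - φ ε ∈ Ideal.span {ϖ ^ M}) :
    ∃ θ : S[X], θ.coeff 0 = 0 ∧ θ.coeff 1 = ε ∧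
      semiDefect ϖ w φ q θ ∈ nearIdeal ϖ M D := by
  obtain ⟨v, hv⟩ := hw.exists_left_inv
  suffices ∀ n, ∃ θ : S[X], θ.coeff 0 = 0 ∧ θ.coeff 1 = ε ∧
      ∀ i < n + 2, (semiDefect ϖ w φ q θ).coeff i ∈ Ideal.span {ϖ ^ M} by
    obtain ⟨θ, h0, h1, h⟩ := this D
    exact ⟨θ, h0, h1, mem_nearIdeal.2 fun i hi => h i (by omega)⟩
  intro n
  induction n with
  | zero =>
    refine ⟨C ε * X ^ 1, by simp, by simp, fun i hi => ?_⟩
    obtain ⟨h1, h2⟩ := coeff_semiDefect_add (ϖ := ϖ) (w := w) (φ := φ) hq le_rfl 0 (coeff_zero 0) ε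
    rw [zero_add] at h1 h2
    have h0 : semiDefect ϖ w φ q 0 = 0 := by
      simp [semiDefect, basicPoly, zero_pow (show q ≠ 0 by omega)]
    rcases (by omega : i = 0 ∨ i = 1) with rfl | rfl
    · rw [h1 0 one_pos, h0, coeff_zero]
      exact zero_mem _
    · rw [h2, h0, coeff_zero, zero_add, pow_one, mul_assoc, mul_comm (φ ε), ← mul_sub]
      exact Ideal.mul_mem_left _ _ hε
  | succ n ih =>
    obtain ⟨θ, hθ0, hθ1, hθ⟩ := ih
    obtain ⟨e, he⟩ := Ideal.mem_span_singleton'.1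
      (coeff_semiDefect_mem (w := w) hp hcong θ (n + 2))
    -- solve `w c - φ c ϖ ^ (n + 1) + e = 0` modulo `ϖ ^ M`
    have hsol : ∀ s, ∃ c : S, w * c - φ c * ϖ ^ (n + 1) + e ∈ Ideal.span {ϖ ^ s} := by
      intro s
      induction s with
      | zero => exact ⟨0, by simp⟩
      | succ s ihs =>
        obtain ⟨c, hc⟩ := ihs
        set E := w * c - φ c * ϖ ^ (n + 1) + e
        refine ⟨c - v * E, ?_⟩
        obtain ⟨d, hd⟩ := Ideal.mem_span_singleton'.1 hc
        have : w * (c - v * E) - φ (c - v * E) * ϖ ^ (n + 1) + e =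
            φ (v * d) * ϖ ^ n * ϖ ^ (s + 1) := by
          rw [show v * E = v * d * ϖ ^ s by rw [← hd, mul_assoc], map_sub, map_mul φ (v * d),
            map_pow, hϖ]
          linear_combination (-(d * ϖ ^ s)) * hv - hd
        rw [this]
        exact Ideal.mul_mem_left _ _ (Ideal.mem_span_singleton_self _)
    obtain ⟨c, hc⟩ := hsol M
    refine ⟨θ + C c * X ^ (n + 2), by simp [hθ0],
      by simp [hθ1, coeff_X_pow], fun i hi => ?_⟩
    obtain ⟨h1, h2⟩ := coeff_semiDefect_add (ϖ := ϖ) (w := w) (φ := φ) hq (i := n + 2) (by omega)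
      θ hθ0 c
    rcases Nat.lt_or_ge i (n + 2) with hi' | hi'
    · rw [h1 i hi']
      exact hθ i hi'
    · rw [show i = n + 2 by omega, h2, ← he, show e * ϖ + ϖ * w * c - φ c * ϖ ^ (n + 2) =
        ϖ * (w * c - φ c * ϖ ^ (n + 1) + e) by ring]
      exact Ideal.mul_mem_left _ _ hc

/-- **Uniqueness**: solutions with congruent linear terms are congruent. -/
theorem semilinear_unique (hq : 2 ≤ q) (hϖ : φ ϖ = ϖ) (hw : IsUnit w)
    (hreg : ∀ a, ϖ * a = 0 → a = 0) {M D : ℕ} {θ θ' : S[X]} (h0 : θ.coeff 0 = 0)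
    (h0' : θ'.coeff 0 = 0) (h1 : θ.coeff 1 - θ'.coeff 1 ∈ Ideal.span {ϖ ^ M})
    (h : semiDefect ϖ w φ q θ ∈ nearIdeal ϖ M D) (h' : semiDefect ϖ w φ q θ' ∈ nearIdeal ϖ M D) :
    ∀ i < D, θ.coeff i - θ'.coeff i ∈ Ideal.span {ϖ ^ (M - i)} := by
  obtain ⟨v, hv⟩ := hw.exists_left_inv
  intro i
  induction i using Nat.strong_induction_on with
  | _ i ih =>
    intro hi
    rcases (by omega : i = 0 ∨ i = 1 ∨ 2 ≤ i) with rfl | rfl | hi2
    · rw [h0, h0', sub_self]
      exact zero_mem _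
    · exact Ideal.span_singleton_le_span_singleton.2 (pow_dvd_pow _ (by omega)) h1
    rcases Nat.lt_or_ge i M with hiM | hiM
    swap
    · simp [show M - i = 0 by omega]
    set δ := θ - θ'
    have hδ : ∀ j, δ.coeff j = θ.coeff j - θ'.coeff j := coeff_sub θ θ'
    obtain ⟨Y, hY⟩ : ∃ Y, θ ^ q - θ' ^ q = δ * (X * Y) :=
      exists_pow_sub_pow_eq hq (X_dvd_iff.2 h0) (X_dvd_iff.2 h0')
    -- split off the terms below degree `i`
    set J := Ideal.span {ϖ ^ (M - i + 1)}
    set lo := ∑ j ∈ Finset.range i, C (δ.coeff j) * X ^ j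
    have hlo : ∀ P : S[X], P.coeff 0 = 0 → ∀ g : S →+* S, g ϖ = ϖ →
        ((lo.map g).comp P).coeff i ∈ J := by
      intro P _ g hg
      rw [Polynomial.map_sum, sum_comp, finsetSum_coeff]
      refine sum_mem fun j hj => ?_
      have hj' := Finset.mem_range.1 hj
      obtain ⟨d, hd⟩ := Ideal.mem_span_singleton'.1 (ih j hj' (by omega))
      rw [Polynomial.map_mul, map_C, Polynomial.map_pow, map_X, mul_comp, C_comp, coeff_C_mul,
        hδ, ← hd, map_mul, map_pow, hg]
      exact J.mul_mem_right _ (J.mul_mem_left _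
        (Ideal.mem_span_singleton.2 (pow_dvd_pow _ (by omega))))
    obtain ⟨H, hH⟩ : X ^ i ∣ δ - lo := by
      rw [X_pow_dvd_iff]
      intro d hd
      simp [lo, coeff_sub, finsetSum_coeff, hd]
    rw [sub_eq_iff_eq_add'] at hH
    have hHi : H.coeff 0 = δ.coeff i := by
      rw [hH, coeff_add, coeff_X_pow_mul', if_pos le_rfl, Nat.sub_self, finsetSum_coeff,
        Finset.sum_eq_zero fun j hj => ?_, zero_add]
      rw [coeff_C_mul_X_pow, if_neg (by have := Finset.mem_range.1 hj; omega)]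
    have hlo0 : lo.coeff i = 0 := by
      rw [finsetSum_coeff, Finset.sum_eq_zero fun j hj => ?_]
      rw [coeff_C_mul_X_pow, if_neg (by have := Finset.mem_range.1 hj; omega)]
    have hkey : semiDefect ϖ w φ q θ - semiDefect ϖ w φ q θ' =
        C (ϖ * w) * δ + δ * (X * Y) - (δ.map φ).comp (basicPoly ϖ q) := by
      simp only [semiDefect, δ, Polynomial.map_sub, sub_comp]
      simp only [basicPoly, add_comp, mul_comp, pow_comp, X_comp, C_comp]
      linear_combination hY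
    have hmid : (δ * (X * Y)).coeff i ∈ J := by
      rw [mul_comm X Y, ← mul_assoc, show i = i - 1 + 1 by omega, coeff_mul_X, coeff_mul]
      refine sum_mem fun x hx => J.mul_mem_right _ ?_
      rw [Finset.HasAntidiagonal.mem_antidiagonal] at hx
      rw [hδ]
      exact Ideal.span_singleton_le_span_singleton.2 (pow_dvd_pow _ (by omega))
        (ih _ (by omega) (by omega))
    have hlast : ((δ.map φ).comp (basicPoly ϖ q)).coeff i - φ (δ.coeff i) * ϖ ^ i ∈ J := by
      rw [hH, Polynomial.map_add, add_comp, coeff_add, Polynomial.map_mul, Polynomial.map_pow,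
        map_X, mul_comp, pow_comp, X_comp]
      have hxi : (basicPoly ϖ q : S[X]) ^ i = X ^ i * (X ^ (q - 1) + C ϖ) ^ i := by
        rw [← mul_pow, mul_add, ← pow_succ', show q - 1 + 1 = q by omega, mul_comm X (C ϖ)]
        rfl
      have hval : ((X ^ (q - 1) + C ϖ) ^ i * (H.map φ).comp (basicPoly ϖ q)).coeff 0 =
          φ (δ.coeff i) * ϖ ^ i := by
        rw [mul_coeff_zero, mul_comm, coeff_zero_eq_eval_zero, eval_comp,
          show (basicPoly ϖ q).eval 0 = 0 by simp [basicPoly, zero_pow (show q ≠ 0 by omega)],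
          ← coeff_zero_eq_eval_zero, coeff_map, hHi]
        simp [coeff_zero_eq_eval_zero, zero_pow (show q - 1 ≠ 0 by omega)]
      rw [hxi, mul_assoc, coeff_X_pow_mul', if_pos le_rfl, Nat.sub_self, ← hH, hval,
        add_sub_cancel_right]
      exact hlo _ (by simp [basicPoly, coeff_X_pow, show 0 ≠ q by omega]) φ hϖ
    have hsum : ϖ * (w * δ.coeff i - φ (δ.coeff i) * ϖ ^ (i - 1)) ∈ J := by
      have hle : Ideal.span {ϖ ^ M} ≤ J :=
        Ideal.span_singleton_le_span_singleton.2 (pow_dvd_pow _ (by omega))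
      have hz := congrArg (fun P => coeff P i) hkey
      simp only [coeff_sub, coeff_add, coeff_C_mul] at hz
      have hd := hle (sub_mem (mem_nearIdeal.1 h i hi) (mem_nearIdeal.1 h' i hi))
      rw [hz] at hd
      have := sub_mem (sub_mem hd hmid) (neg_mem hlast)
      convert this using 1
      rw [mul_sub, ← mul_assoc, mul_left_comm ϖ, ← pow_succ', show i - 1 + 1 = i by omega]
      ring
    obtain ⟨e, he⟩ := Ideal.mem_span_singleton'.1 hsum
    have hred : w * δ.coeff i - φ (δ.coeff i) * ϖ ^ (i - 1) = e * ϖ ^ (M - i) := by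
      refine sub_eq_zero.1 (hreg _ ?_)
      rw [mul_sub, ← he, pow_succ]
      ring
    -- the equation is contracting
    suffices ∀ a ≤ M - i, δ.coeff i ∈ Ideal.span {ϖ ^ a} by
      rw [← hδ]; exact this _ le_rfl
    intro a
    induction a with
    | zero => simp
    | succ a iha =>
      intro ha
      obtain ⟨d, hd⟩ := Ideal.mem_span_singleton'.1 (iha (by omega))
      rw [show δ.coeff i = v * (e * ϖ ^ (M - i) + φ (δ.coeff i) * ϖ ^ (i - 1)) by
        rw [← hred, sub_add_cancel, ← mul_assoc, hv, one_mul]]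
      refine Ideal.mul_mem_left _ _ (add_mem (Ideal.mul_mem_left _ _
        (Ideal.mem_span_singleton.2 (pow_dvd_pow _ ha))) ?_)
      rw [← hd, map_mul, map_pow, hϖ, mul_assoc, ← pow_add]
      exact Ideal.mul_mem_left _ _ (Ideal.mem_span_singleton.2 (pow_dvd_pow _ (by omega)))

/-- The solutions iterate: `g'_j ∘ θ = θ^(φ ^ j) ∘ g_j`. -/
theorem iterPoly_comp_semilinear (hq : 2 ≤ q) (hϖ : φ ϖ = ϖ) (hw' : φ w = w) {M D : ℕ}
    {θ : S[X]} (h : semiDefect ϖ w φ q θ ∈ nearIdeal ϖ M D) (j : ℕ) :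
    ∃ θj : S[X], (θ.coeff 0 = 0 → θj.coeff 0 = 0) ∧
      (iterPoly (ϖ * w) q j).comp θ - θj.comp (iterPoly ϖ q j) ∈ nearIdeal ϖ M D ∧
      semiDefect ϖ w φ q θj ∈ nearIdeal ϖ M D := by
  induction j with
  | zero => exact ⟨θ, id, by simp [iterPoly], h⟩
  | succ j ih =>
    obtain ⟨θj, h0, hj, hd⟩ := ih
    have hfix : ∀ c, φ c = c → (basicPoly c q).map φ = basicPoly c q := fun c hc => by
      simp [basicPoly, hc]
    refine ⟨θj.map φ, fun h => by rw [coeff_map, h0 h, map_zero], ?_, ?_⟩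
    · have h1 := comp_sub_comp_mem (basicPoly (ϖ * w) q) hj
      have h2 := comp_mem_nearIdeal hd (monic_iterPoly (π := ϖ) hq j).2.2.1
      rw [semiDefect, sub_comp, comp_assoc, comp_assoc] at h2
      rw [iterPoly, iterPoly, comp_assoc]
      simpa using add_mem h1 h2
    · have := map_mem_nearIdeal hϖ hd
      rwa [semiDefect, Polynomial.map_sub, map_comp, map_comp, hfix _ (by rw [map_mul, hϖ, hw']),
        hfix _ hϖ] at this

/-- The composite of a solution with an endomorphism of `f` is a solution. -/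
theorem semiDefect_comp_mem {M D : ℕ} {θ P : S[X]}
    (h : semiDefect ϖ w φ q θ ∈ nearIdeal ϖ M D) (hP0 : P.coeff 0 = 0) (hPφ : P.map φ = P)
    (hP : (basicPoly ϖ q).comp P - P.comp (basicPoly ϖ q) ∈ nearIdeal ϖ M D) :
    semiDefect ϖ w φ q (θ.comp P) ∈ nearIdeal ϖ M D := by
  have : semiDefect ϖ w φ q (θ.comp P) = (semiDefect ϖ w φ q θ).comp P +
      ((θ.map φ).comp ((basicPoly ϖ q).comp P) - (θ.map φ).comp (P.comp (basicPoly ϖ q))) := by
    rw [semiDefect, semiDefect, map_comp, hPφ, sub_comp, comp_assoc, comp_assoc, comp_assoc]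
    abel
  rw [this]
  exact add_mem (comp_mem_nearIdeal h hP0) (comp_sub_comp_mem _ hP)

end Fermat.Agent.LubinTate
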