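import Fermat.Agent.LubinTate.Torsion.Series
import Fermat.Agent.LubinTate.Reciprocity.Semilinear
import Mathlib.Algebra.Polynomial.Identities
import Mathlib.Algebra.Polynomial.Splits
import Mathlib.Algebra.Order.Ring.IsNonarchimedean
import Mathlib.Analysis.Normed.Field.Ultra
import Mathlib.RingTheory.IntegralClosure.IsIntegralClosure.Basic

/-!
# Estimates for an absolute value

`ν` is a nonarchimedean absolute value on `C` which is at most one on `O`: bounds for values of
polynomials, roots of unity prime to the residue characteristic and the separation of the torsion.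
-/

set_option autoImplicit false

noncomputable section

open Polynomial

namespace Fermat.Agent.LubinTate

variable {C : Type*} [Field C] {ν : AbsoluteValue C ℝ}

section Values

variable (hna : IsNonarchimedean ν)
include hna

theorem absVal_sum_le {ι : Type*} (s : Finset ι) (g : ι → C) {B : ℝ} (hB : 0 ≤ B)
    (h : ∀ i ∈ s, ν (g i) ≤ B) : ν (∑ i ∈ s, g i) ≤ B := by
  classical
  induction s using Finset.induction_on with
  | empty => simpa using hB
  | insert a s ha ih =>
    rw [Finset.sum_insert ha]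
    exact (hna _ _).trans (max_le (h a (Finset.mem_insert_self a s))
      (ih fun i hi => h i (Finset.mem_insert_of_mem hi)))

theorem absVal_sub_le (x y z : C) : ν (x - z) ≤ max (ν (x - y)) (ν (y - z)) := by
  rw [← sub_add_sub_cancel x y z]
  exact hna _ _

theorem absVal_eval_sub_le {P : C[X]} (hP : ∀ i, ν (P.coeff i) ≤ 1) {a b : C}
    (ha : ν a ≤ 1) (hb : ν b ≤ 1) : ν (P.eval a - P.eval b) ≤ ν (a - b) := by
  rw [eval_eq_sum_range, eval_eq_sum_range, ← Finset.sum_sub_distrib]
  refine absVal_sum_le hna _ _ (ν.nonneg _) fun i _ => ?_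
  rw [← mul_sub, ← geom_sum₂_mul, map_mul, map_mul, ← mul_assoc]
  refine mul_le_of_le_one_left (ν.nonneg _) ?_
  refine mul_le_one₀ (hP i) (ν.nonneg _) (absVal_sum_le hna _ _ zero_le_one fun j _ => ?_)
  rw [map_mul, map_pow, map_pow]
  exact mul_le_one₀ (pow_le_one₀ (ν.nonneg _) ha) (pow_nonneg (ν.nonneg _) _)
    (pow_le_one₀ (ν.nonneg _) hb)

/-- A polynomial without constant term and with unit linear term is an isometry inside. -/
theorem absVal_eval_sub_eq {P : C[X]} (hP : ∀ i, ν (P.coeff i) ≤ 1)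
    (h1 : ν (P.coeff 1) = 1) {a b : C} (ha : ν a < 1) (hb : ν b < 1) :
    ν (P.eval a - P.eval b) = ν (a - b) := by
  rcases eq_or_ne a b with rfl | hab
  · simp
  have hn : P.natDegree < P.natDegree + 1 + 1 + 1 := by omega
  rw [eval_eq_sum_range' hn, eval_eq_sum_range' hn,
    ← Finset.sum_sub_distrib, Finset.sum_range_succ', Finset.sum_range_succ']
  simp only [pow_zero, mul_one, sub_self, add_zero, zero_add, pow_one, ← mul_sub]
  have hpos : 0 < ν (a - b) := ν.pos (sub_ne_zero.2 hab)
  set m := max (ν a) (ν b)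
  have hm : m < 1 := max_lt ha hb
  have hm0 : 0 ≤ m := (ν.nonneg a).trans (le_max_left _ _)
  have hsum : ν (∑ i ∈ Finset.range (P.natDegree + 1),
      P.coeff (i + 1 + 1) * (a ^ (i + 1 + 1) - b ^ (i + 1 + 1))) < ν (a - b) := by
    refine lt_of_le_of_lt (absVal_sum_le hna _ _ (mul_nonneg hm0 hpos.le) fun i _ => ?_)
      (mul_lt_of_lt_one_left hpos hm)
    rw [← geom_sum₂_mul, ← mul_assoc, map_mul]
    refine mul_le_mul_of_nonneg_right ?_ (ν.nonneg _)
    rw [map_mul]
    refine (mul_le_of_le_one_left (ν.nonneg _) (hP _)).trans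
      (absVal_sum_le hna _ _ hm0 fun j hj => ?_)
    rw [map_mul, map_pow, map_pow]
    rcases Nat.eq_zero_or_pos j with rfl | hj0
    · rw [pow_zero, one_mul]
      exact (pow_le_of_le_one (ν.nonneg _) hb.le (by omega)).trans (le_max_right _ _)
    · exact (mul_le_of_le_one_right (pow_nonneg (ν.nonneg _) _)
        (pow_le_one₀ (ν.nonneg _) hb.le)).trans
          ((pow_le_of_le_one (ν.nonneg _) ha.le hj0.ne').trans (le_max_left _ _))
  have h1' : ν (P.coeff 1 * (a - b)) = ν (a - b) := by rw [map_mul, h1, one_mul]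
  rw [add_comm]
  exact (IsNonarchimedean.add_eq_left_of_lt hna (h1'.symm ▸ hsum)).trans h1'

omit hna in
theorem exists_le_of_prod_le {α : Type*} {f : α → ℝ} {c : ℝ} (hc : 0 ≤ c) (s : Multiset α)
    (hs : s ≠ 0) (h : (s.map f).prod ≤ c ^ s.card) : ∃ x ∈ s, f x ≤ c := by
  induction s using Multiset.induction_on with
  | empty => exact absurd rfl hs
  | cons a t ih =>
    by_contra! hlt
    have ha : c < f a := hlt a (Multiset.mem_cons_self a t)
    rw [Multiset.map_cons, Multiset.prod_cons, Multiset.card_cons, pow_succ'] at h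
    rcases eq_or_ne t 0 with rfl | ht
    · simp at h
      linarith
    · have hsmall : (t.map f).prod ≤ c ^ t.card := by
        by_contra! hgt
        exact absurd h (not_le.2 (lt_of_le_of_lt (mul_le_mul_of_nonneg_right ha.le
          (pow_nonneg hc _)) (mul_lt_mul_of_pos_left hgt (hc.trans_lt ha))))
      obtain ⟨x, hx, hxc⟩ := ih ht hsmall
      exact absurd hxc (not_le.2 (hlt x (Multiset.mem_cons_of_mem hx)))

omit hna in
/-- A monic polynomial small at `y` has a root near `y`. -/
theorem exists_root_near {P : C[X]} (hP : P.Monic) (hs : P.Splits) (hd : 0 < P.natDegree) {y : C}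
    {c : ℝ} (hc : 0 ≤ c) (h : ν (P.eval y) ≤ c ^ P.natDegree) :
    ∃ r, P.IsRoot r ∧ ν (y - r) ≤ c := by
  have hcard : P.roots.card = P.natDegree := (Polynomial.splits_iff_card_roots.1 hs)
  rw [Splits.eval_eq_prod_roots_of_monic hs hP, map_multiset_prod, Multiset.map_map] at h
  obtain ⟨r, hr, hrc⟩ := exists_le_of_prod_le (f := fun r => ν (y - r)) hc P.roots
    (by rw [← Multiset.card_pos, hcard]; exact hd) (hcard.symm ▸ h)
  exact ⟨r, isRoot_of_mem_roots hr, hrc⟩

/-- A polynomial small at many separated points has small leading coefficient. -/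
theorem absVal_coeff_lt_one_of_forall {d : ℕ} : ∀ {P : C[X]}, P.natDegree ≤ d → ∀ s : Finset C,
    d < s.card → (∀ x ∈ s, ∀ y ∈ s, x ≠ y → ν (x - y) = 1) → (∀ x ∈ s, ν (P.eval x) < 1) →
      ν (P.coeff d) < 1 := by
  classical
  induction d with
  | zero =>
    intro P hP s hs _ h
    obtain ⟨x, hx⟩ := Finset.card_pos.1 hs
    have := h x hx
    rwa [eq_C_of_natDegree_le_zero hP, eval_C] at this
  | succ d ih =>
    intro P hP s hs hsep h
    obtain ⟨x₀, hx₀⟩ := Finset.card_pos.1 (d.succ_pos.trans hs)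
    obtain ⟨Q, hQ⟩ : X - Polynomial.C x₀ ∣ P - Polynomial.C (P.eval x₀) :=
      X_sub_C_dvd_sub_C_eval
    have hQd : Q.natDegree ≤ d := by
      rcases eq_or_ne Q 0 with rfl | hQ0
      · simp
      have h2 := congrArg natDegree hQ
      rw [natDegree_sub_C, natDegree_mul (X_sub_C_ne_zero x₀) hQ0, natDegree_X_sub_C] at h2
      omega
    have hco : P.coeff (d + 1) = Q.coeff d := by
      have h2 := congrArg (fun R => coeff R (d + 1)) hQ
      simp only [coeff_sub, sub_mul, coeff_X_mul, coeff_C_mul,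
        coeff_C_of_ne_zero (Nat.succ_ne_zero d),
        coeff_eq_zero_of_natDegree_lt (show Q.natDegree < d + 1 by omega), mul_zero, sub_zero] at h2
      exact h2
    rw [hco]
    refine ih hQd (s.erase x₀) (by rw [Finset.card_erase_of_mem hx₀]; omega)
      (fun x hx y hy => hsep x (Finset.mem_of_mem_erase hx) y (Finset.mem_of_mem_erase hy))
      fun x hx => ?_
    have he := congrArg (eval x) hQ
    rw [eval_sub, eval_C, eval_mul, eval_sub, eval_X, eval_C] at he
    have hsub : ν (P.eval x - P.eval x₀) < 1 := by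
      rw [sub_eq_add_neg]
      exact lt_of_le_of_lt (hna _ _) (max_lt (h x (Finset.mem_of_mem_erase hx))
        (by rw [AbsoluteValue.map_neg]; exact h x₀ hx₀))
    rwa [he, map_mul, hsep x (Finset.mem_of_mem_erase hx) x₀ hx₀ (Finset.ne_of_mem_erase hx),
      one_mul] at hsub

theorem absVal_natCast_le_one (n : ℕ) : ν (n : C) ≤ 1 := by
  rw [← nsmul_one, ← Finset.card_range n, ← Finset.sum_const]
  exact absVal_sum_le hna _ _ zero_le_one fun i _ => (map_one ν).le

/-- Roots of unity of order prime to the residue characteristic are separated. -/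
theorem absVal_sub_eq_one_of_pow {N : ℕ} (hN : ν (N : C) = 1) {x y : C} (hx : x ^ N = 1)
    (hy : y ^ N = 1) (hne : x ≠ y) : ν (x - y) = 1 := by
  have hN0 : N ≠ 0 := by
    rintro rfl
    simp at hN
  have hx1 : ν x = 1 := by
    refine (pow_eq_one_iff_of_nonneg (ν.nonneg x) hN0).1 ?_
    rw [← map_pow, hx, map_one]
  have hy1 : ν y = 1 := by
    refine (pow_eq_one_iff_of_nonneg (ν.nonneg y) hN0).1 ?_
    rw [← map_pow, hy, map_one]
  have hle : ν (x - y) ≤ 1 := by
    rw [sub_eq_add_neg]
    exact (hna _ _).trans (max_le hx1.le (by rw [AbsoluteValue.map_neg, hy1]))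
  refine le_antisymm hle (not_lt.1 fun hlt => ?_)
  have hy0 : y ≠ 0 := fun h => by simp [h] at hy1
  set c := x / y
  have hc : c ^ N = 1 := by rw [div_pow, hx, hy, div_one]
  have hc1 : c ≠ 1 := fun h => hne ((div_eq_one_iff_eq hy0).1 h)
  have hcv : ν (c - 1) < 1 := by rwa [div_sub_one hy0, map_div₀, hy1, div_one]
  have hgeom : ∑ i ∈ Finset.range N, c ^ i = 0 := by
    have h := geom_sum_mul c N
    rw [hc, sub_self] at h
    exact (mul_eq_zero.1 h).resolve_right (sub_ne_zero.2 hc1)
  have hcle : ν c ≤ 1 := by rw [map_div₀, hx1, hy1, div_one]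
  have hsum : ν (∑ i ∈ Finset.range N, (c ^ i - 1)) ≤ ν (c - 1) := by
    refine absVal_sum_le hna _ _ (ν.nonneg _) fun i _ => ?_
    rw [← geom_sum_mul, map_mul]
    refine mul_le_of_le_one_left (ν.nonneg _) (absVal_sum_le hna _ _ zero_le_one fun j _ => ?_)
    rw [map_pow]
    exact pow_le_one₀ (ν.nonneg _) hcle
  rw [Finset.sum_sub_distrib, hgeom, zero_sub, AbsoluteValue.map_neg, Finset.sum_const,
    Finset.card_range, nsmul_one, hN] at hsum
  linarith

end Values

section Integers

variable {O : Type*} [CommRing O] [Algebra O C] (hna : IsNonarchimedean ν)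
  (hle : ∀ a : O, ν (algebraMap O C a) ≤ 1)
include hna hle

theorem absVal_le_one_of_isIntegral {x : C} (hx : IsIntegral O x) : ν x ≤ 1 := by
  obtain ⟨p, hp, hpx⟩ := hx
  rw [← aeval_def, aeval_eq_sum_range, Finset.sum_range_succ, hp.coeff_natDegree, one_smul] at hpx
  by_contra! hlt
  have h1 : ν (x ^ p.natDegree) ≤ max 1 (ν x ^ p.natDegree / ν x) := by
    rw [eq_neg_of_add_eq_zero_right hpx, AbsoluteValue.map_neg]
    refine absVal_sum_le hna _ _ (zero_le_one.trans (le_max_left _ _)) fun i hi => ?_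
    rw [Algebra.smul_def, map_mul, map_pow]
    refine (mul_le_of_le_one_left (pow_nonneg (ν.nonneg x) _) (hle _)).trans
      (le_max_of_le_right ?_)
    rw [le_div_iff₀ (zero_lt_one.trans hlt), ← pow_succ]
    exact pow_le_pow_right₀ hlt.le (Finset.mem_range.1 hi)
  rw [map_pow] at h1
  rcases le_max_iff.1 h1 with h | h
  · rcases Nat.eq_zero_or_pos p.natDegree with h0 | h0
    · rw [h0] at hpx
      simp at hpx
    · exact absurd h (not_le.2 (one_lt_pow₀ hlt h0.ne'))
  · rw [le_div_iff₀ (zero_lt_one.trans hlt)] at h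
    exact absurd h (not_le.2 (lt_mul_of_one_lt_right (pow_pos (zero_lt_one.trans hlt) _) hlt))

theorem absVal_aeval_le_one (P : O[X]) {x : C} (hx : ν x ≤ 1) : ν (aeval x P) ≤ 1 := by
  rw [aeval_eq_sum_range]
  refine absVal_sum_le hna _ _ zero_le_one fun i _ => ?_
  rw [Algebra.smul_def, map_mul, map_pow]
  exact mul_le_one₀ (hle _) (pow_nonneg (ν.nonneg _) _) (pow_le_one₀ (ν.nonneg _) hx)

/-- Values of elements of `(π ^ M, X ^ D)`. -/
theorem absVal_aeval_nearIdeal {ϖ : O} {M D : ℕ} {P : O[X]} (hP : P ∈ nearIdeal ϖ M D) {x : C}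
    (hx : ν x ≤ 1) : ν (aeval x P) ≤ max (ν (algebraMap O C ϖ) ^ M) (ν x ^ D) := by
  obtain ⟨a, ha, b, hb, rfl⟩ := Submodule.mem_sup.1 hP
  obtain ⟨a, rfl⟩ := Ideal.mem_span_singleton'.1 ha
  obtain ⟨b, rfl⟩ := Ideal.mem_span_singleton'.1 hb
  rw [map_add, map_mul, map_mul, aeval_C, map_pow, map_pow, aeval_X]
  refine (hna _ _).trans (max_le_max ?_ ?_) <;> rw [map_mul, map_pow] <;>
    exact mul_le_of_le_one_left (pow_nonneg (ν.nonneg _) _) (absVal_aeval_le_one hna hle _ hx)

variable {π : O} {q : ℕ} (hq : 2 ≤ q)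
include hq

theorem absVal_root_pow_le (j : ℕ) {a : C} (ha : aeval a (iterPoly π q j) = 0) :
    ν a ≤ 1 ∧ ν a ^ q ^ j ≤ ν (algebraMap O C π) := by
  obtain ⟨hmon, hmap, -, -⟩ := monic_iterPoly (π := π) hq j
  have ha1 : ν a ≤ 1 := absVal_le_one_of_isIntegral hna hle ⟨_, hmon, ha⟩
  refine ⟨ha1, ?_⟩
  obtain ⟨R, hR⟩ : Polynomial.C π ∣ iterPoly π q j - X ^ q ^ j := by
    refine C_dvd_iff_dvd_coeff _ _ |>.2 fun i => ?_
    rw [← Ideal.mem_span_singleton, ← Ideal.Quotient.eq_zero_iff_mem, ← coeff_map,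
      Polynomial.map_sub, hmap, Polynomial.map_pow, map_X, sub_self, coeff_zero]
  have h := congrArg (aeval a) hR
  rw [map_sub, ha, map_mul, aeval_C, map_pow, aeval_X, zero_sub] at h
  rw [← map_pow, ← AbsoluteValue.map_neg, h, map_mul]
  exact mul_le_of_le_one_right (ν.nonneg _) (absVal_aeval_le_one hna hle _ ha1)

variable (hπ : ν (algebraMap O C π) < 1)
include hπ

omit hle in
theorem absVal_root_lt_one (hle : ∀ a : O, ν (algebraMap O C a) ≤ 1) (j : ℕ) {a : C}
    (ha : aeval a (iterPoly π q j) = 0) : ν a < 1 := by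
  obtain ⟨-, h⟩ := absVal_root_pow_le hna hle hq j ha
  by_contra! h1
  exact absurd ((one_le_pow₀ h1).trans h) (not_le.2 hπ)

variable (hqπ : (q : O) ∈ Ideal.span {π})
include hqπ

omit hπ in
/-- The derivative of the iterate at a torsion point. -/
theorem absVal_derivative_iterPoly (hπ0 : algebraMap O C π ≠ 0) (j : ℕ) {a : C} (ha : ν a < 1) :
    ν (aeval a (derivative (iterPoly π q j))) = ν (algebraMap O C π) ^ j := by
  induction j with
  | zero => simp [iterPoly]
  | succ j ih =>
    rw [iterPoly, derivative_comp, map_mul, map_mul, ih, aeval_comp, pow_succ]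
    congr 1
    set y := aeval a (iterPoly π q j) with hydef
    have hy : ν y < 1 := by
      obtain ⟨R, hR⟩ := X_dvd_iff.2 (monic_iterPoly (π := π) hq j).2.2.1
      rw [hydef, hR, map_mul, aeval_X, map_mul]
      exact lt_of_le_of_lt (mul_le_of_le_one_right (ν.nonneg _)
        (absVal_aeval_le_one hna hle R ha.le)) ha
    obtain ⟨c, hc⟩ := Ideal.mem_span_singleton'.1 hqπ
    rw [basicPoly, derivative_add, derivative_X_pow, derivative_C_mul_X, map_add, map_mul, aeval_C,
      aeval_C, map_pow, aeval_X, ← hc, map_mul]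
    refine (IsNonarchimedean.add_eq_right_of_lt hna ?_)
    rw [map_mul, map_mul, map_pow, mul_assoc]
    refine lt_of_le_of_lt (mul_le_of_le_one_left ?_ (hle c)) ?_
    · exact mul_nonneg (ν.nonneg _) (pow_nonneg (ν.nonneg _) _)
    · exact mul_lt_of_lt_one_right (ν.pos hπ0) (lt_of_le_of_lt
        (pow_le_of_le_one (ν.nonneg _) hy.le (by omega)) hy)

/-- **Distinct torsion points are separated.** -/
theorem absVal_sub_root_ge (hπ0 : algebraMap O C π ≠ 0) (j : ℕ) {a b : C}
    (ha : aeval a (iterPoly π q j) = 0) (hb : aeval b (iterPoly π q j) = 0) (hne : a ≠ b) :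
    ν (algebraMap O C π) ^ j ≤ ν (a - b) := by
  have hmon := (monic_iterPoly (π := π) hq j).1
  let B := integralClosure O C
  let a' : B := ⟨a, _, hmon, ha⟩
  let b' : B := ⟨b, _, hmon, hb⟩
  set P := (iterPoly π q j).map (algebraMap O B)
  obtain ⟨c, hc⟩ := binomExpansion P a' (b' - a')
  rw [add_sub_cancel] at hc
  have hev : ∀ (F : O[X]) (x : B), (((F.map (algebraMap O B)).eval x : B) : C) =
      aeval (x : C) F := fun F x => by
    rw [eval_map, ← aeval_def]
    exact (aeval_algHom_apply B.val x F).symm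
  have hc' := congrArg (Subtype.val : B → C) hc
  rw [hev, Subalgebra.coe_add, Subalgebra.coe_add, Subalgebra.coe_mul, Subalgebra.coe_mul,
    hev, show P.derivative = (derivative (iterPoly π q j)).map (algebraMap O B) from
      derivative_map _ _, hev, Subalgebra.coe_pow, Subalgebra.coe_sub] at hc'
  change aeval b _ = aeval a _ + aeval a _ * (b - a) + (c : C) * (b - a) ^ 2 at hc'
  rw [ha, hb, zero_add, sq, ← mul_assoc, ← add_mul] at hc'
  have hd := (mul_eq_zero.1 hc'.symm).resolve_right (sub_ne_zero.2 hne.symm)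
  rw [← absVal_derivative_iterPoly hna hle hq hqπ hπ0 j
      (absVal_root_lt_one hna hq hπ hle j ha),
    eq_neg_of_add_eq_zero_left hd, AbsoluteValue.map_neg, map_mul, ν.map_sub a b]
  exact mul_le_of_le_one_left (ν.nonneg _) (absVal_le_one_of_isIntegral hna hle c.2)

end Integers

end Fermat.Agent.LubinTate
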