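import Fermat.Agent.LubinTate.Reciprocity.Approximation
import Fermat.Agent.LubinTate.Torsion.Galois
import Mathlib.Algebra.CharP.Lemmas
import Mathlib.FieldTheory.IsAlgClosed.Basic
import Mathlib.RingTheory.RootsOfUnity.AlgebraicallyClosed
import Mathlib.RingTheory.RootsOfUnity.PrimitiveRoots

/-!
# A Frobenius fixing the torsion of `π u` acts on the torsion of `π` as `[u⁻¹]`

`C` is an algebraically closed extension of `O` with an absolute value, `σ` an isometry which
raises roots of unity of order `q ^ m - 1` to the power `q` and fixes the torsion of level `k + 1`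
of the group of `π u X + X ^ q`. An approximate solution `θ` of `f' ∘ θ = θ^σ ∘ f` with
`θ^σ = θ ∘ [u]` shows that `σ` sends a torsion point `lam` of `π X + X ^ q` to `[u⁻¹] (lam)`.
-/

set_option autoImplicit false

noncomputable section

open Polynomial IsLocalRing

namespace Fermat.Agent.LubinTate

theorem map_iterPoly {A B : Type*} [CommRing A] [CommRing B] (g : A →+* B) (c : A) (q : ℕ) :
    ∀ j, (iterPoly c q j).map g = iterPoly (g c) q j
  | 0 => by simp [iterPoly]
  | j + 1 => by rw [iterPoly, iterPoly, Polynomial.map_comp, map_iterPoly g c q j]; simp [basicPoly]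

theorem hasSubst_coe {O : Type*} [CommRing O] {b : O[X]} (hb : b.coeff 0 = 0) :
    PowerSeries.HasSubst (b : PowerSeries O) := by
  refine PowerSeries.HasSubst.of_constantCoeff_zero' ?_
  rw [← PowerSeries.coeff_zero_eq_constantCoeff_apply, coeff_coe, hb]

/-- The truncations of series which commute with `f` commute with it up to the truncation. -/
theorem X_pow_dvd_comp_trunc {O : Type*} [CommRing O] {π : O} {q : ℕ} (hq : 2 ≤ q) {D : ℕ}
    (hD : 0 < D) {A : PowerSeries O} (hA : A.constantCoeff = 0)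
    (hcomm : PowerSeries.subst A (basicPoly π q : PowerSeries O) =
      PowerSeries.subst (basicPoly π q : PowerSeries O) A) :
    X ^ D ∣ (basicPoly π q).comp (PowerSeries.trunc D A) -
      (PowerSeries.trunc D A).comp (basicPoly π q) := by
  set f := basicPoly π q
  set P := PowerSeries.trunc D A
  have hf0 : f.coeff 0 = 0 := by simp [f, basicPoly, coeff_X_pow, show 0 ≠ q by omega]
  have hP0 : P.coeff 0 = 0 := by
    rw [PowerSeries.coeff_trunc, if_pos hD, PowerSeries.coeff_zero_eq_constantCoeff_apply, hA]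
  have hcomp : ∀ a b : O[X], b.coeff 0 = 0 → ((a.comp b : O[X]) : PowerSeries O) =
      PowerSeries.subst (b : PowerSeries O) (a : PowerSeries O) := fun a b hb => by
    rw [PowerSeries.subst_coe (hasSubst_coe hb),
      show (a.comp b : PowerSeries O) = Polynomial.coeToPowerSeries.algHom O (a.comp b) by simp,
      comp_eq_aeval, ← aeval_algHom_apply]
    simp
  set T : PowerSeries O := PowerSeries.mk fun i => A.coeff (i + D)
  have hsplit : A = T * PowerSeries.X ^ D + (P : PowerSeries O) :=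
    A.eq_X_pow_mul_shift_add_trunc D |>.trans (by rw [mul_comm])
  have hsA : PowerSeries.HasSubst A := PowerSeries.HasSubst.of_constantCoeff_zero hA
  have hsf : PowerSeries.HasSubst (f : PowerSeries O) := hasSubst_coe hf0
  have hsP : PowerSeries.HasSubst (P : PowerSeries O) := hasSubst_coe hP0
  have h1 : (PowerSeries.X ^ D : PowerSeries O) ∣ PowerSeries.subst A (f : PowerSeries O) -
      PowerSeries.subst (P : PowerSeries O) (f : PowerSeries O) := by
    rw [PowerSeries.subst_coe hsA, PowerSeries.subst_coe hsP, aeval_def, aeval_def, ← eval_map,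
      ← eval_map]
    refine dvd_trans ?_ (sub_dvd_eval_sub _ _ _)
    exact ⟨T, by rw [hsplit]; ring⟩
  have h2 : (PowerSeries.X ^ D : PowerSeries O) ∣ PowerSeries.subst (f : PowerSeries O) A -
      PowerSeries.subst (f : PowerSeries O) (P : PowerSeries O) := by
    obtain ⟨R, hR⟩ := X_dvd_iff.2 hf0
    refine ⟨(R : PowerSeries O) ^ D * PowerSeries.subst (f : PowerSeries O) T, ?_⟩
    conv_lhs => rw [hsplit, PowerSeries.subst_add hsf, add_sub_cancel_right,
      PowerSeries.subst_mul hsf, PowerSeries.subst_pow hsf, PowerSeries.subst_X hsf]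
    rw [hR, Polynomial.coe_mul, Polynomial.coe_X, mul_pow]
    ring
  rw [hcomm] at h1
  have h3 := dvd_sub h2 h1
  rw [sub_sub_sub_cancel_left, ← hcomp _ _ hP0, ← hcomp _ _ hf0, ← Polynomial.coe_sub] at h3
  rw [X_pow_dvd_iff]
  intro i hi
  rw [← coeff_coe]
  exact PowerSeries.X_pow_dvd_iff.1 h3 i hi


theorem p_mem_map {R : Type*} [CommRing R] {π : R} {S : Type*} [CommRing S] [Algebra R S]
    {p r q : ℕ} (hpπ : (p : R) ∈ Ideal.span {π}) (hp : p.Prime) (hq : q = p ^ r) :
    ∃ p r : ℕ, p.Prime ∧ q = p ^ r ∧ (p : S) ∈ Ideal.span {algebraMap R S π} := by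
  obtain ⟨c, hc⟩ := Ideal.mem_span_singleton'.1 hpπ
  exact ⟨p, r, hp, hq, Ideal.mem_span_singleton'.2
    ⟨algebraMap R S c, by rw [← map_mul, hc, map_natCast]⟩⟩

section Frobenius

variable {O : Type*} [CommRing O] {C : Type*} [CommRing C] [Algebra O C] {N : ℕ}

variable (O C N) in
/-- The algebra generated by the roots of unity of order `N`. -/
abbrev rootsAdjoin : Subalgebra O C := Algebra.adjoin O {x : C | x ^ N = 1}

/-- An endomorphism which is the `q`th power on the roots of unity is a Frobenius modulo `π`. -/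
theorem frobenius_congr_adjoin {π : O} {q : ℕ} (hO : IsLubinTateBase π q) 
    {S : Subalgebra O C} (hS : S = Algebra.adjoin O {x : C | x ^ N = 1}) (φ : S →ₐ[O] S)
    (hφ : ∀ x : S, (x : C) ^ N = 1 → φ x = x ^ q) :
    ∀ a, φ a - a ^ q ∈ Ideal.span {algebraMap O S π} := by
  subst hS
  obtain ⟨p, r, hp, -, hqpr, hpπ⟩ := hO.exists_prime_pow
  set J := Ideal.span {algebraMap O (rootsAdjoin O C N) π}
  have hmap : ∀ {d : O}, d ∈ Ideal.span {π} → algebraMap O (rootsAdjoin O C N) d ∈ J :=
      fun {d} hd => by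
    obtain ⟨c, rfl⟩ := Ideal.mem_span_singleton'.1 hd
    rw [map_mul]
    exact J.mul_mem_left _ (Ideal.mem_span_singleton_self _)
  rintro ⟨a, ha⟩
  induction ha using Algebra.adjoin_induction with
  | mem x hx =>
    rw [hφ _ (show x ^ N = 1 from hx), sub_self]
    exact zero_mem _
  | algebraMap c =>
    change φ (algebraMap O _ c) - algebraMap O (rootsAdjoin O C N) c ^ q ∈ J
    rw [AlgHom.commutes, ← map_pow, ← map_sub, ← neg_sub, map_neg]
    exact neg_mem (hmap (hO.pow_sub_self c))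
  | add x y hx hy ihx ihy =>
    change φ (⟨x, hx⟩ + ⟨y, hy⟩) - (⟨x, hx⟩ + ⟨y, hy⟩ : (rootsAdjoin O C N)) ^ q ∈ J
    obtain ⟨c, hc⟩ := exists_add_pow_prime_pow_eq hp (⟨x, hx⟩ : (rootsAdjoin O C N)) ⟨y, hy⟩ r
    rw [map_add, hqpr, hc, ← hqpr]
    have hpJ : (p : (rootsAdjoin O C N)) ∈ J := by simpa using hmap hpπ
    convert sub_mem (add_mem ihx ihy)
      (J.mul_mem_right ((⟨x, hx⟩ : rootsAdjoin O C N) * ⟨y, hy⟩ * c) hpJ) using 1
    ring
  | mul x y hx hy ihx ihy =>
    change φ (⟨x, hx⟩ * ⟨y, hy⟩) - (⟨x, hx⟩ * ⟨y, hy⟩ : (rootsAdjoin O C N)) ^ q ∈ J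
    rw [map_mul, mul_pow, show φ ⟨x, hx⟩ * φ ⟨y, hy⟩ -
        (⟨x, hx⟩ : rootsAdjoin O C N) ^ q * ⟨y, hy⟩ ^ q =
      φ ⟨x, hx⟩ * (φ ⟨y, hy⟩ - ⟨y, hy⟩ ^ q) +
        (φ ⟨x, hx⟩ - ⟨x, hx⟩ ^ q) * ⟨y, hy⟩ ^ q by ring]
    exact add_mem (J.mul_mem_left _ ihy) (J.mul_mem_right _ ihx)

end Frobenius

section Epsilon

variable {O : Type*} [CommRing O] {C : Type*} [Field C] [IsAlgClosed C] [Algebra O C]
  {ν : AbsoluteValue C ℝ}

/-- A unit `ε` in the roots of unity algebra with `φ ε ≡ u ε` modulo `π ^ M`. -/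
theorem exists_frobenius_eigen (hna : IsNonarchimedean ν) (hle : ∀ a : O, ν (algebraMap O C a) ≤ 1)
    {π : O} {q m M N : ℕ} (hq : 2 ≤ q) (hm : 0 < m) (hN : N = q ^ m - 1)
    (hνN : ν (N : C) = 1) {S : Subalgebra O C} (hS : S = Algebra.adjoin O {x : C | x ^ N = 1})
    (φ : S →ₐ[O] S) (hφ : ∀ x : S, (x : C) ^ N = 1 → φ x = x ^ q) (u : Oˣ)
    (hum : ((u⁻¹ : Oˣ) : O) ^ m - 1 ∈ Ideal.span {π ^ M}) :
    ∃ ε : S, ν (ε : C) = 1 ∧
      algebraMap O S (u : O) * ε - φ ε ∈ Ideal.span {algebraMap O S π ^ M} := by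
  classical
  have hqm : 2 ≤ q ^ m := hq.trans (Nat.le_self_pow hm.ne' q)
  have hN0 : 0 < N := by omega
  have : NeZero (N : C) := ⟨fun h => by simp [h] at hνN⟩
  have hS1 : ∀ a : S, ν (a : C) ≤ 1 := fun a => absVal_le_one_of_isIntegral hna hle
    ((Algebra.adjoin_le fun x (hx : x ^ N = 1) =>
      (⟨X ^ N - 1, monic_X_pow_sub_C 1 hN0.ne', by simp [hx]⟩ :
        x ∈ integralClosure O C) : Algebra.adjoin O _ ≤ integralClosure O C) (hS ▸ a.2))
  have hμS : ∀ {x : C}, x ^ N = 1 → x ∈ S := fun {x} hx => by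
    rw [hS]; exact Algebra.subset_adjoin hx
  set w : S := algebraMap O S (u : O)
  set ϖ : S := algebraMap O S π
  -- a unit `ε` with `φ ε ≡ u ε`
  obtain ⟨ζ, hζ⟩ := HasEnoughRootsOfUnity.exists_primitiveRoot C N
  set pts : Finset C := insert 0 (nthRootsFinset N (1 : C)) with hpts
  have hmem : ∀ {x : C}, x ∈ pts ↔ x = 0 ∨ x ^ N = 1 := fun {x} => by
    rw [hpts, Finset.mem_insert, mem_nthRootsFinset hN0]
  set W : C := algebraMap O C ((u⁻¹ : Oˣ) : O)
  set P : C[X] := ∑ i ∈ Finset.range m, Polynomial.C (W ^ i) * X ^ q ^ i with hP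
  have hPd : P.natDegree ≤ q ^ (m - 1) := natDegree_sum_le_of_forall_le _ _ fun i hi =>
    (natDegree_C_mul_X_pow_le _ _).trans
      (Nat.pow_le_pow_right (by omega) (by have := Finset.mem_range.1 hi; omega))
  have hW : ν W = 1 := by
    refine le_antisymm (hle _) ?_
    have h : ν W * ν (algebraMap O C (u : O)) = 1 := by
      rw [← map_mul, ← map_mul, Units.inv_mul, map_one, map_one]
    rw [← h]
    exact mul_le_of_le_one_right (ν.nonneg _) (hle _)
  have hPc : ν (P.coeff (q ^ (m - 1))) = 1 := by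
    rw [hP, finsetSum_coeff, Finset.sum_eq_single (m - 1), coeff_C_mul_X_pow, if_pos rfl, map_pow,
      hW, one_pow]
    · intro i hi hne
      rw [coeff_C_mul_X_pow, if_neg fun h => hne (Nat.pow_right_injective hq h).symm]
    · intro h
      exact absurd (Finset.mem_range.2 (by omega)) h
  obtain ⟨x, hx, hPx⟩ : ∃ x ∈ pts, 1 ≤ ν (P.eval x) := by
    by_contra! hall
    refine absurd (absVal_coeff_lt_one_of_forall hna hPd pts ?_ ?_ hall) (not_lt.2 hPc.ge)
    · rw [hpts, Finset.card_insert_of_notMem (by simp [mem_nthRootsFinset hN0, hN0.ne']),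
        hζ.card_nthRootsFinset]
      have : q ^ (m - 1) < q ^ m := Nat.pow_lt_pow_right (by omega) (by omega)
      omega
    · intro a ha b hb hne
      have h1 : ∀ {z : C}, z ^ N = 1 → ν z = 1 := fun {z} hz =>
        (pow_eq_one_iff_of_nonneg (ν.nonneg z) hN0.ne').1 (by rw [← map_pow, hz, map_one])
      rcases hmem.1 ha with rfl | ha <;> rcases hmem.1 hb with rfl | hb
      · exact absurd rfl hne
      · rw [zero_sub, AbsoluteValue.map_neg, h1 hb]
      · rw [sub_zero, h1 ha]
      · exact absVal_sub_eq_one_of_pow hna hνN ha hb hne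
  have hxS : x ∈ S := by
    rcases hmem.1 hx with rfl | h
    exacts [zero_mem _, hμS h]
  have hxq : x ^ q ^ m = x := by
    rw [show q ^ m = N + 1 by omega, pow_succ]
    rcases hmem.1 hx with rfl | h
    · rw [mul_zero]
    · rw [h, one_mul]
  have hxφ : φ ⟨x, hxS⟩ = ⟨x, hxS⟩ ^ q := by
    rcases hmem.1 hx with rfl | h
    · rw [show (⟨0, hxS⟩ : S) = 0 from rfl, map_zero, zero_pow (by omega)]
    · exact hφ ⟨x, hxS⟩ h
  set v : S := algebraMap O S ((u⁻¹ : Oˣ) : O)
  set ε : S := ∑ i ∈ Finset.range m, v ^ i * ⟨x, hxS⟩ ^ q ^ i with hεdef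
  have hε : ν (ε : C) = 1 := by
    refine le_antisymm (hS1 ε) (hPx.trans_eq (congrArg ν ?_))
    rw [hP, eval_finsetSum, hεdef, AddSubmonoidClass.coe_finsetSum]
    refine Finset.sum_congr rfl fun i _ => ?_
    simp only [eval_mul, eval_C, eval_pow, eval_X]
    rfl
  have hεu : w * ε - φ ε ∈ Ideal.span {ϖ ^ M} := by
    have hwv : w * v = 1 := by rw [← map_mul, Units.mul_inv, map_one]
    have hφv : φ v = v := φ.commutes _
    have : w * ε - φ ε = w * (1 - v ^ m) * ⟨x, hxS⟩ := by
      have hcalc : w * ε - φ ε = ∑ i ∈ Finset.range m,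
          ((fun i => w * v ^ i * ⟨x, hxS⟩ ^ q ^ i) i -
            (fun i => w * v ^ i * ⟨x, hxS⟩ ^ q ^ i) (i + 1)) := by
        rw [hεdef, Finset.mul_sum, map_sum, ← Finset.sum_sub_distrib]
        refine Finset.sum_congr rfl fun i _ => ?_
        show w * (v ^ i * _) - φ (v ^ i * _) = w * v ^ i * _ - w * v ^ (i + 1) * _
        rw [map_mul, map_pow, map_pow, hφv, hxφ, ← pow_mul, pow_succ' q, pow_succ' v,
          ← mul_assoc w v, hwv, one_mul, mul_assoc]
      rw [hcalc, Finset.sum_range_sub']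
      simp only [pow_zero, mul_one, pow_one]
      rw [show (⟨x, hxS⟩ : S) ^ q ^ m = ⟨x, hxS⟩ from Subtype.ext (by
        rw [SubmonoidClass.coe_pow]; exact hxq)]
      ring
    rw [this]
    refine Ideal.mul_mem_right _ _ (Ideal.mul_mem_left _ _ ?_)
    obtain ⟨c, hc⟩ := Ideal.mem_span_singleton'.1 hum
    refine Ideal.mem_span_singleton'.2 ⟨-algebraMap O S c, ?_⟩
    rw [neg_mul, show ϖ ^ M = algebraMap O S (π ^ M) from (map_pow _ _ _).symm, ← map_mul, hc,
      map_sub, map_one, map_pow, neg_sub]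
  exact ⟨ε, hε, hεu⟩

end Epsilon

variable {O : Type*} [CommRing O] [IsDomain O] [IsDiscreteValuationRing O]
  [Finite (ResidueField O)] [IsAdicComplete (maximalIdeal O) O] {π : O} (hπ : Irreducible π)
  (k : ℕ) {K : Type*} [Field K] [Algebra O K] [IsFractionRing O K] {L : Type*} [Field L]
  [Algebra K L] [Algebra O L] [IsScalarTower O K L] {lam : L}
  (hlam : IsTorsionGenerator K π k lam) {C : Type*} [Field C] [Algebra O C] {ν : AbsoluteValue C ℝ}

include hπ

omit [IsAdicComplete (maximalIdeal O) O] in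
/-- `θ^φ ≡ θ ∘ [u]`. -/
theorem semilinear_iterate {S : Type*} [CommRing S] [Algebra O S] (φ : S →ₐ[O] S) (u : Oˣ)
    (hreg : ∀ a, algebraMap O S π * a = 0 → a = 0) {T D M : ℕ} (hD2 : 2 ≤ D) (hM : T + D ≤ M)
    {θ : S[X]} {ε : S} (hθ0 : θ.coeff 0 = 0) (hθ1 : θ.coeff 1 = ε)
    (hεu : algebraMap O S (u : O) * ε - φ ε ∈ Ideal.span {algebraMap O S π ^ M})
    (hθ : semiDefect (algebraMap O S π) (algebraMap O S (u : O)) (φ : S →+* S) (residueCard O) θ ∈
      nearIdeal (algebraMap O S π) M D) :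
    θ.map (φ : S →+* S) -
      θ.comp ((PowerSeries.trunc D (torsionScalar hπ (u : O))).map (algebraMap O S)) ∈
        nearIdeal (algebraMap O S π) T D := by
  have hO := isLubinTateBase hπ
  set q := residueCard O
  have hq : 2 ≤ q := hO.two_le
  set ϖ : S := algebraMap O S π
  set w : S := algebraMap O S (u : O)
  have hwu : IsUnit w := u.isUnit.map _
  set Pu := (PowerSeries.trunc D (torsionScalar hπ (u : O))).map (algebraMap O S) with hPu
  have hPu0 : Pu.coeff 0 = 0 := by
    rw [hPu, coeff_map, PowerSeries.coeff_trunc, if_pos (by omega),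
      PowerSeries.coeff_zero_eq_constantCoeff_apply, torsionScalar, constantCoeff_scalarHom,
      map_zero]
  have hPu1 : Pu.coeff 1 = w := by
    rw [hPu, coeff_map, PowerSeries.coeff_trunc, if_pos (by omega), torsionScalar,
      coeff_one_scalarHom]
  have hPuφ : Pu.map (φ : S →+* S) = Pu := by
    ext i
    simp only [hPu, coeff_map]
    exact φ.commutes _
  have hcommP : (basicPoly ϖ q).comp Pu - Pu.comp (basicPoly ϖ q) ∈ nearIdeal ϖ M D := by
    have h := X_pow_dvd_comp_trunc hq (show 0 < D by omega)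
      (constantCoeff_scalarHom hO (isLTSeries_basicPoly hO) (isLTSeries_basicPoly hO) (u : O))
      (scalarHom_comm _ _ _ _)
    have h' := Polynomial.map_dvd (algebraMap O S) h
    rw [Polynomial.map_pow, map_X, Polynomial.map_sub, Polynomial.map_comp,
      Polynomial.map_comp] at h'
    have hb : (basicPoly π q).map (algebraMap O S) = basicPoly ϖ q := by simp [basicPoly, ϖ]
    rw [hb] at h'
    exact Submodule.mem_sup_right (Ideal.mem_span_singleton.2 h')
  show θ.map (φ : S →+* S) - θ.comp Pu ∈ nearIdeal ϖ T D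
  have h1 : semiDefect ϖ w φ q (θ.map (φ : S →+* S)) ∈ nearIdeal ϖ M D := by
    have := map_mem_nearIdeal (φ := (φ : S →+* S)) (φ.commutes π) hθ
    have hfix : ∀ c, φ c = c → (basicPoly c q).map (φ : S →+* S) = basicPoly c q := fun c hc => by
      simp [basicPoly, hc]
    rwa [semiDefect, Polynomial.map_sub, Polynomial.map_comp, Polynomial.map_comp,
      hfix _ (by rw [map_mul]; exact congrArg₂ _ (φ.commutes π) (φ.commutes (u : O))),
      hfix _ (φ.commutes π)] at this
  have h2 := semiDefect_comp_mem hθ hPu0 hPuφ hcommP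
  have hd0 : (θ.comp Pu).coeff 0 = 0 := by
    rw [coeff_zero_eq_eval_zero, eval_comp, ← coeff_zero_eq_eval_zero, hPu0,
      ← coeff_zero_eq_eval_zero, hθ0]
  have hd1 : (θ.comp Pu).coeff 1 = w * ε := by
    have h := congrArg (eval 0) (derivative_comp θ Pu)
    rw [eval_mul, eval_comp, ← coeff_zero_eq_eval_zero Pu, hPu0] at h
    simp only [← coeff_zero_eq_eval_zero, coeff_derivative, Nat.cast_zero, zero_add,
      mul_one] at h
    rw [h, hPu1, hθ1]
  have hu := semilinear_unique hq (φ.commutes π) hwu hreg (M := M) (D := D)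
    (by rw [coeff_map, hθ0, map_zero]) hd0
    (by rw [coeff_map, hθ1, hd1, ← neg_sub]; exact neg_mem hεu) h1 h2
  rw [mem_nearIdeal]
  intro i hi
  rw [coeff_sub]
  exact Ideal.span_singleton_le_span_singleton.2 (pow_dvd_pow _ (by omega)) (hu i hi)

include hlam

variable (hna : IsNonarchimedean ν) (hle : ∀ a : O, ν (algebraMap O C a) ≤ 1)
  (ι : L →ₐ[O] C)
include hna hle ι

theorem absVal_aeval_trunc_scalar_le (D T : ℕ) (hD : residueCard O ^ (k + 1) * T ≤ D) (b a : O) :
    ν (aeval (ι (torsionPoint hπ k hlam a)) (PowerSeries.trunc D (torsionScalar hπ b)) -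
      ι (torsionPoint hπ k hlam (b * a))) ≤ ν (algebraMap O C π) ^ T := by
  obtain ⟨E, hE⟩ : ∃ E : L, IsIntegral O E ∧ torsionPoint hπ k hlam (b * a) =
      aeval (torsionPoint hπ k hlam a) (PowerSeries.trunc D (torsionScalar hπ b)) +
        torsionPoint hπ k hlam a ^ D * E := by
    set A := torsionScalar hπ a
    refine ⟨evalAt hπ k hlam (PowerSeries.subst A
      (PowerSeries.mk fun i => (torsionScalar hπ b).coeff (i + D))),
      isIntegral_evalAt hπ k hlam _, ?_⟩
    have h0 := isLTSeries_basicPoly (isLubinTateBase hπ)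
    have hs : PowerSeries.HasSubst A :=
      PowerSeries.HasSubst.of_constantCoeff_zero (constantCoeff_scalarHom _ _ _ _)
    have hmul : torsionScalar hπ (b * a) = PowerSeries.subst A (torsionScalar hπ b) :=
      scalarHom_mul (isLubinTateBase hπ) h0 h0 h0 b a
    rw [torsionPoint, hmul]
    conv_lhs => rw [(torsionScalar hπ b).eq_X_pow_mul_shift_add_trunc D, PowerSeries.subst_add hs,
      PowerSeries.subst_mul hs, PowerSeries.subst_pow hs, PowerSeries.subst_X hs, map_add,
      map_mul, map_pow]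
    rw [aeval_torsionPoint_eq, add_comm]
    rfl
  set x := ι (torsionPoint hπ k hlam a)
  rw [hE.2, map_add, ← aeval_algHom_apply, sub_add_cancel_left, AbsoluteValue.map_neg, map_mul,
    map_pow, map_mul, map_pow]
  refine (mul_le_of_le_one_right (pow_nonneg (ν.nonneg _) _)
    (absVal_le_one_of_isIntegral hna hle (hE.1.map ι))).trans ?_
  have hx : aeval x (iterPoly π (residueCard O) (k + 1)) = 0 := by
    rw [aeval_algHom_apply, aeval_torsionPoint_iter, map_zero]
  obtain ⟨h1, h2⟩ := absVal_root_pow_le hna hle (isLubinTateBase hπ).two_le (k + 1) hx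
  exact (pow_le_pow_of_le_one (ν.nonneg _) h1 hD).trans
    ((pow_mul _ _ _).trans_le (pow_le_pow_left₀ (pow_nonneg (ν.nonneg _) _) h2 T))


omit [IsDomain O] [IsDiscreteValuationRing O] [Finite (ResidueField O)]
  [IsAdicComplete (maximalIdeal O) O] hπ hlam hna hle ι in
theorem algebraMap_injective_of_algHom (ι : L →ₐ[O] C) {K : Type*} [Field K] [Algebra O K]
    [IsFractionRing O K] [Algebra K L] [IsScalarTower O K L] :
    Function.Injective (algebraMap O C) := by
  rw [show algebraMap O C = (ι : L →+* C).comp (algebraMap O L) from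
    (AlgHom.comp_algebraMap ι).symm, IsScalarTower.algebraMap_eq O K L]
  exact (ι : L →+* C).injective.comp
    ((algebraMap K L).injective.comp (IsFractionRing.injective O K))

variable [IsAlgClosed C]

/-- The values of a solution give the action. -/
theorem apply_eq_of_solution (hlt : ν (algebraMap O C π) < 1) (u : Oˣ) (σ : C →ₐ[O] C)
    (hσν : ∀ x, ν (σ x) = ν x)
    (hroot : ∀ x : C, aeval x (iterPoly (π * u) (residueCard O) (k + 1)) = 0 → σ x = x)
    (S : Subalgebra O C) (hνS : ∀ a : S, ν (algebraMap S C a) ≤ 1) (φ : S →ₐ[O] S)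
    (hφσ : ∀ a, (φ a : C) = σ a) {T D M : ℕ}
    (hT : T = (k + 2) * residueCard O ^ (k + 1)) (hD : D = residueCard O ^ (k + 1) * T)
    (hM : T ≤ M) {θ : S[X]} (hθ0 : θ.coeff 0 = 0) (hε : ν (θ.coeff 1 : C) = 1)
    (hθ : semiDefect (algebraMap O S π) (algebraMap O S (u : O)) (φ : S →+* S) (residueCard O) θ ∈
      nearIdeal (algebraMap O S π) M D)
    (hθφ : θ.map (φ : S →+* S) -
      θ.comp ((PowerSeries.trunc D (torsionScalar hπ (u : O))).map (algebraMap O S)) ∈
        nearIdeal (algebraMap O S π) T D) :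
    σ (ι lam) = ι (torsionPoint hπ k hlam ((u⁻¹ : Oˣ) : O)) := by
  classical
  have hO := isLubinTateBase hπ
  set q := residueCard O with hqdef
  have hq : 2 ≤ q := hO.two_le
  obtain ⟨p, r, hp, hr, hqpr, hpπ⟩ := hO.exists_prime_pow
  have hqπ : (q : O) ∈ Ideal.span {π} := by
    rw [hqpr, Nat.cast_pow]
    exact Ideal.pow_mem_of_mem _ hpπ r hr
  set ρ := ν (algebraMap O C π)
  have hπ0 : algebraMap O C π ≠ 0 :=
    (map_ne_zero_iff _ (algebraMap_injective_of_algHom ι (K := K))).2 hπ.ne_zero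
  have hρ0 : 0 < ρ := ν.pos hπ0
  set Nr := q ^ (k + 1) with hNr
  have hNr0 : 0 < Nr := pow_pos (by omega) _
  set ϖ : S := algebraMap O S π
  set w : S := algebraMap O S (u : O)
  set Pu := (PowerSeries.trunc D (torsionScalar hπ (u : O))).map (algebraMap O S) with hPu
  -- values
  have hroot' : ∀ a : O, aeval (ι (torsionPoint hπ k hlam a)) (iterPoly π q (k + 1)) = 0 := by
    intro a
    rw [aeval_algHom_apply, aeval_torsionPoint_iter, map_zero]
  have hsmall : ∀ {z : C}, aeval z (iterPoly π q (k + 1)) = 0 →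
      ν z < 1 ∧ ν z ^ D ≤ ρ ^ T := fun {z} hz => by
    refine ⟨absVal_root_lt_one hna hq hlt hle (k + 1) hz, ?_⟩
    rw [hD, pow_mul]
    exact pow_le_pow_left₀ (pow_nonneg (ν.nonneg _) _)
      (absVal_root_pow_le hna hle hq (k + 1) hz).2 T
  have hnear : ∀ {R : S[X]} {j : ℕ}, R ∈ nearIdeal ϖ j D → T ≤ j → ∀ {z : C},
      aeval z (iterPoly π q (k + 1)) = 0 → ν (aeval z R) ≤ ρ ^ T := fun {R j} hR hj {z} hz => by
    refine (absVal_aeval_nearIdeal hna hνS hR (hsmall hz).1.le).trans (max_le ?_ (hsmall hz).2)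
    exact pow_le_pow_of_le_one (ν.nonneg _) hlt.le hj
  set l := ι lam
  have hl : aeval l (iterPoly π q (k + 1)) = 0 := by
    have := hroot' 1
    rwa [torsionPoint_one] at this
  set y := aeval l θ
  -- a torsion point of `π u` near `θ (lam)`
  have hgy : ν (aeval y (iterPoly (π * u) q (k + 1))) ≤ (ρ ^ (k + 2)) ^ Nr := by
    obtain ⟨θj, hθj0, hj, -⟩ :=
      iterPoly_comp_semilinear (w := w) hq (φ.commutes π) (φ.commutes _) hθ (k + 1)
    have hg : ∀ (c : O) (z : C), aeval z (iterPoly (algebraMap O S c) q (k + 1)) =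
        aeval z (iterPoly c q (k + 1)) := fun c z => by
      rw [← map_iterPoly (algebraMap O S), aeval_map_algebraMap]
    have h := hnear hj hM hl
    rw [map_sub, aeval_comp, aeval_comp, show ϖ * w = algebraMap O S (π * u) from
      (map_mul _ _ _).symm, hg, hg, hl] at h
    rw [← coeff_zero_eq_aeval_zero', hθj0 hθ0, map_zero, sub_zero] at h
    rwa [← pow_mul, ← hT]
  obtain ⟨r', hr', hyr⟩ := exists_root_near
    (P := (iterPoly (π * u) q (k + 1)).map (algebraMap O C))
    ((monic_iterPoly hq (k + 1)).1.map _) (IsAlgClosed.splits _)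
    (c := ρ ^ (k + 2)) (y := y) (ν := ν) (by
      rw [(monic_iterPoly hq (k + 1)).1.natDegree_map]
      have := nontrivial_quotient (O := O) (π := π * u)
        ((irreducible_mul_units u).2 hπ)
      rw [natDegree_iterPoly hq]
      positivity) (pow_nonneg (ν.nonneg _) _) (by
      rw [(monic_iterPoly hq (k + 1)).1.natDegree_map, eval_map, ← aeval_def]
      have := nontrivial_quotient (O := O) (π := π * u)
        ((irreducible_mul_units u).2 hπ)
      rwa [natDegree_iterPoly hq])
  have hσr : σ r' = r' := hroot r' (by rwa [IsRoot.def, eval_map, ← aeval_def] at hr')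
  have hσy : ν (σ y - y) ≤ ρ ^ (k + 2) := by
    refine (absVal_sub_le hna _ r' _).trans (max_le ?_ (by rwa [ν.map_sub]))
    rw [← hσr, ← map_sub, hσν]
    exact hyr
  have hσy' : σ y = aeval (σ l) (θ.map (φ : S →+* S)) := by
    rw [show y = aeval l θ from rfl, aeval_def, aeval_def, eval₂_map,
      show (algebraMap S C).comp (φ : S →+* S) = (σ : C →+* C).comp (algebraMap S C) from
        RingHom.ext hφσ]
    exact hom_eval₂ θ _ (σ : C →+* C) l
  -- the image of `lam` is a torsion point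
  obtain ⟨a, ha⟩ : ∃ a, σ l = ι (torsionPoint hπ k hlam a) := by
    have hz : aeval (σ l) (iterPoly π q (k + 1)) = 0 := by
      rw [aeval_algHom_apply, hl, map_zero]
    obtain ⟨hset, -, hsf⟩ := isSplittingField_torsion hπ k hlam
    have hsp : ((iterPoly π q (k + 1)).map (algebraMap O L)).Splits := by
      have h := hsf.splits'
      rwa [Polynomial.map_map, ← IsScalarTower.algebraMap_eq] at h
    have hne : (iterPoly π q (k + 1)).map (algebraMap O C) ≠ 0 :=
      ((monic_iterPoly hq (k + 1)).1.map _).ne_zero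
    have hmemr : σ l ∈ (((iterPoly π q (k + 1)).map (algebraMap O L)).map (ι : L →+* C)).roots := by
      rw [Polynomial.map_map, AlgHom.comp_algebraMap, mem_roots hne, IsRoot.def, eval_map,
        ← aeval_def]
      exact hz
    rw [hsp.roots_map, Multiset.mem_map] at hmemr
    obtain ⟨z, hzr, hze⟩ := hmemr
    have hzset : z ∈ ((iterPoly π q (k + 1)).map (algebraMap O K)).rootSet L := by
      rw [mem_rootSet', aeval_map_algebraMap, Polynomial.map_map,
        ← IsScalarTower.algebraMap_eq]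
      exact ⟨((monic_iterPoly hq (k + 1)).1.map _).ne_zero, by
        rw [aeval_def, ← eval_map]; exact isRoot_of_mem_roots hzr⟩
    rw [hset] at hzset
    obtain ⟨a, rfl⟩ := hzset
    exact ⟨a, hze.symm⟩
  set b := ι (torsionPoint hπ k hlam (u * a))
  have hb : aeval b (iterPoly π q (k + 1)) = 0 := hroot' _
  have hlip : ν (aeval (aeval (σ l) Pu) θ - aeval b θ) ≤ ρ ^ T := by
    have hPb : ν (aeval (σ l) Pu - b) ≤ ρ ^ T := by
      rw [hPu, aeval_map_algebraMap, ha]
      exact absVal_aeval_trunc_scalar_le hπ k hlam hna hle ι D T hD.ge _ _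
    refine le_trans ?_ hPb
    rw [aeval_def (aeval (σ l) Pu), aeval_def b, ← eval_map, ← eval_map]
    refine absVal_eval_sub_le hna (fun i => by rw [coeff_map]; exact hνS _) ?_ (hsmall hb).1.le
    exact absVal_aeval_le_one hna hνS _ (hsmall (ha ▸ hroot' a)).1.le
  have hTk : ρ ^ T ≤ ρ ^ (k + 2) :=
    pow_le_pow_of_le_one hρ0.le hlt.le (hT ▸ Nat.le_mul_of_pos_right _ hNr0)
  have hθσ : ν (aeval (σ l) (θ.map (φ : S →+* S)) - aeval (aeval (σ l) Pu) θ) ≤ ρ ^ T := by
    rw [← aeval_comp, ← map_sub]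
    exact hnear hθφ le_rfl (ha ▸ hroot' a)
  have hclose : ν (b - l) ≤ ρ ^ (k + 2) := by
    have hiso : ν (aeval b θ - aeval l θ) = ν (b - l) := by
      rw [aeval_def, aeval_def, ← eval_map, ← eval_map]
      refine absVal_eval_sub_eq hna (fun i => by rw [coeff_map]; exact hνS _) ?_
        (hsmall hb).1 (hsmall hl).1
      rw [coeff_map]
      exact hε
    rw [← hiso]
    refine (absVal_sub_le hna _ (aeval (aeval (σ l) Pu) θ) _).trans (max_le ?_ ?_)
    · rw [ν.map_sub]
      exact hlip.trans hTk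
    refine (absVal_sub_le hna _ (aeval (σ l) (θ.map (φ : S →+* S))) _).trans (max_le ?_ ?_)
    · rw [ν.map_sub]
      exact hθσ.trans hTk
    · rw [← hσy']
      exact hσy
  have hbl : b = l := by
    by_contra hne
    have h := (absVal_sub_root_ge hna hle hq hlt hqπ hπ0 (k + 1) hb hl hne).trans hclose
    exact absurd h (not_le.2 (pow_lt_pow_right_of_lt_one₀ hρ0 hlt (by omega)))
  have htp : torsionPoint hπ k hlam (u * a) = torsionPoint hπ k hlam 1 :=
    (ι : L →+* C).injective (by rw [torsionPoint_one]; exact hbl)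
  rw [torsionPoint_eq_iff] at htp
  rw [ha]
  refine congrArg ι ((torsionPoint_eq_iff hπ k hlam _ _).2 ?_)
  have := Ideal.mul_mem_left _ ((u⁻¹ : Oˣ) : O) htp
  rwa [mul_sub, ← mul_assoc, Units.inv_mul, one_mul, mul_one] at this

/-- **A Frobenius fixing the torsion of `π u` sends `lam` to `[u⁻¹] (lam)`.** -/
theorem apply_torsion_generator (hlt : ν (algebraMap O C π) < 1) (u : Oˣ) (σ : C →ₐ[O] C)
    (hσν : ∀ x, ν (σ x) = ν x)
    (hroot : ∀ x : C, aeval x (iterPoly (π * u) (residueCard O) (k + 1)) = 0 → σ x = x)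
    (hfrob : ∀ m : ℕ, 0 < m → ∀ ζ : C, ζ ^ (residueCard O ^ m - 1) = 1 →
      σ ζ = ζ ^ residueCard O) :
    σ (ι lam) = ι (torsionPoint hπ k hlam ((u⁻¹ : Oˣ) : O)) := by
  classical
  have hO := isLubinTateBase hπ
  set q := residueCard O with hqdef
  have hq : 2 ≤ q := hO.two_le
  obtain ⟨p, r, hp, hr, hqpr, hpπ⟩ := hO.exists_prime_pow
  have hqπ : (q : O) ∈ Ideal.span {π} := by
    rw [hqpr, Nat.cast_pow]
    exact Ideal.pow_mem_of_mem _ hpπ r hr
  -- the precisions
  set Nr := q ^ (k + 1) with hNr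
  have hNr2 : 2 ≤ Nr := hq.trans (Nat.le_self_pow k.succ_ne_zero q)
  set T := (k + 2) * Nr with hT
  set D := Nr * T with hD
  set M := T + D with hM
  have hT2 : 2 ≤ T := hNr2.trans (Nat.le_mul_of_pos_left _ (by omega))
  have hD2 : 2 ≤ D := hT2.trans (Nat.le_mul_of_pos_left _ (by omega))
  -- an exponent `m` with `u ^ m ≡ 1`
  have hfin := finite_quotient_span_pow hπ M
  set m := Nat.card (O ⧸ Ideal.span {π ^ M})ˣ
  have hm : 0 < m := Nat.card_pos
  have hum : ((u⁻¹ : Oˣ) : O) ^ m - 1 ∈ Ideal.span {π ^ M} := by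
    have h : Units.map (Ideal.Quotient.mk (Ideal.span {π ^ M})).toMonoidHom u⁻¹ ^ m =
        (1 : (O ⧸ Ideal.span {π ^ M})ˣ) := pow_card_eq_one'
    rw [← Ideal.Quotient.mk_eq_mk_iff_sub_mem, map_pow, map_one]
    simpa using congrArg Units.val h
  set N := q ^ m - 1 with hN
  have hqm : 2 ≤ q ^ m := hq.trans (Nat.le_self_pow hm.ne' q)
  have hνq : ν ((q ^ m : ℕ) : C) < 1 := by
    obtain ⟨c, hc⟩ := Ideal.mem_span_singleton'.1 (Ideal.pow_mem_of_mem _ hqπ m hm)
    rw [← map_natCast (algebraMap O C), Nat.cast_pow, ← hc, map_mul, map_mul]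
    exact lt_of_le_of_lt (mul_le_of_le_one_left (ν.nonneg _) (hle c)) hlt
  have hνN : ν (N : C) = 1 := by
    rw [hN, Nat.cast_sub (by omega), Nat.cast_one, sub_eq_add_neg]
    refine (IsNonarchimedean.add_eq_right_of_lt hna ?_).trans ?_ <;>
      rw [AbsoluteValue.map_neg, map_one]
    exact hνq
  have hN0 : 0 < N := by omega
  set S := Algebra.adjoin O {x : C | x ^ N = 1} with hSdef
  have hνS : ∀ a : S, ν (algebraMap S C a) ≤ 1 := fun a => absVal_le_one_of_isIntegral hna hle
    ((Algebra.adjoin_le fun x (hx : x ^ N = 1) =>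
      (⟨X ^ N - 1, monic_X_pow_sub_C 1 hN0.ne', by simp [hx]⟩ :
        x ∈ integralClosure O C) : S ≤ integralClosure O C) a.2)
  have hσS : ∀ a : S, σ (a : C) ∈ S := fun a => by
    have h : S ≤ S.comap σ := Algebra.adjoin_le fun x (hx : x ^ N = 1) => by
      show σ x ∈ S
      rw [hfrob m hm x hx]
      exact pow_mem (Algebra.subset_adjoin (show x ∈ {x : C | x ^ N = 1} from hx)) q
    exact h a.2
  let φ : S →ₐ[O] S := (σ.comp S.val).codRestrict S hσS
  have hφq : ∀ x : S, (x : C) ^ N = 1 → φ x = x ^ q := fun x hx =>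
    Subtype.ext (hfrob m hm x hx)
  obtain ⟨ε, hε, hεu⟩ := exists_frobenius_eigen hna hle hq hm hN hνN hSdef φ hφq u hum
  obtain ⟨θ, hθ0, hθ1, hθ⟩ := exists_semilinear (φ := (φ : S →+* S)) hq (φ.commutes π)
    (u.isUnit.map (algebraMap O S)) (p_mem_map hpπ hp hqpr) (frobenius_congr_adjoin hO hSdef φ hφq)
    M D hεu
  refine apply_eq_of_solution hπ k hlam hna hle ι hlt u σ hσν hroot S hνS φ (fun _ => rfl) hT hD
    (by omega) hθ0 (hθ1.symm ▸ hε) hθ ?_
  have hπ0 : algebraMap O C π ≠ 0 :=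
    (map_ne_zero_iff _ (algebraMap_injective_of_algHom ι (K := K))).2 hπ.ne_zero
  have hreg : ∀ a : S, algebraMap O S π * a = 0 → a = 0 := fun a ha =>
    (mul_eq_zero.1 ha).resolve_left fun h => hπ0 (congrArg Subtype.val h)
  exact semilinear_iterate hπ φ u hreg (by omega) (by omega) hθ0 hθ1 hεu hθ

end Fermat.Agent.LubinTate
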