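import Fermat.Agent.IdeleClass.Compact
import Fermat.Agent.LocalCFT.MaximalAbelian
import Fermat.Agent.LubinTate.Explicit.Completion
import Mathlib.NumberTheory.Cyclotomic.Gal
import Mathlib.RingTheory.RootsOfUnity.PrimitiveRoots

/-!
# The local reciprocity map on roots of unity prime to the residue characteristic

An element of valuation `i` acts on the roots of unity of order `q ^ m - 1` as the `q ^ i`th power:
this is read off from the Artin symbol of the cyclotomic extension of the number field.
-/

set_option autoImplicit false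

noncomputable section

open NumberField IsDedekindDomain IsLocalRing WithZero IntermediateField IsMulCommutative
open FA.ArtinRec FA.Ideles FA.LocalCFT
open FA.QuadFormsNF (valued_algebraMap)
open scoped Pointwise

namespace Fermat.Agent.LubinTate

universe u

attribute [local instance] FA.QuadFormsNF.charZero_completion

variable {K : Type u} [Field K] [NumberField K] (v : HeightOneSpectrum (𝓞 K))

theorem mem_maximalIdeal_completion_iff (x : 𝓞 K) :
    algebraMap (𝓞 K) (v.adicCompletionIntegers K) x ∈
        maximalIdeal (v.adicCompletionIntegers K) ↔ x ∈ v.asIdeal := by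
  rw [IsLocalRing.mem_maximalIdeal, mem_nonunits_iff,
    HeightOneSpectrum.adicCompletionIntegers.isUnit_iff_valued_eq_one,
    HeightOneSpectrum.algebraMap_adicCompletionIntegers_apply]
  change ¬ Valued.v (algebraMap K (v.adicCompletion K) (x : K)) = 1 ↔ _
  rw [valued_algebraMap, v.valuation_of_algebraMap,
    ← (v.intValuation_lt_one_iff_mem x), lt_iff_le_and_ne]
  exact ⟨fun h => ⟨v.intValuation_le_one x, h⟩, fun h => h.2⟩

/-- The residue field of the completion is that of the prime. -/
theorem residueCard_completion :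
    residueCard (v.adicCompletionIntegers K) = Nat.card (𝓞 K ⧸ v.asIdeal) := by
  set ρ : 𝓞 K →+* ResidueField (v.adicCompletionIntegers K) :=
    (residue _).comp (algebraMap (𝓞 K) (v.adicCompletionIntegers K))
  have hker : RingHom.ker ρ = v.asIdeal := by
    ext x
    rw [RingHom.mem_ker, RingHom.comp_apply, residue_eq_zero_iff, mem_maximalIdeal_completion_iff]
  have hsurj : Function.Surjective ρ := by
    intro y
    obtain ⟨y, rfl⟩ := IsLocalRing.residue_surjective y
    obtain ⟨b, hb⟩ := FA.QuadFormsNF.exists_element_near v (y : v.adicCompletion K) 1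
    have hbv : v.valuation K (b : K) ≤ 1 := by
      rw [← valued_algebraMap, ← sub_add_cancel (algebraMap K (v.adicCompletion K) (b : K)) y]
      exact Valuation.map_add_le _ (hb.trans (by rw [← exp_zero, exp_le_exp]; omega))
        ((HeightOneSpectrum.mem_adicCompletionIntegers (𝓞 K) K v).1 y.2)
    obtain ⟨r, hr⟩ := FA.IdeleClass.exists_integer_near_any v 0 hbv
    refine ⟨r, ?_⟩
    rw [RingHom.comp_apply, ← sub_eq_zero, ← map_sub, residue_eq_zero_iff,
      IsLocalRing.mem_maximalIdeal, mem_nonunits_iff,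
      HeightOneSpectrum.adicCompletionIntegers.isUnit_iff_valued_eq_one]
    refine ne_of_lt (lt_of_le_of_lt ?_ (show (exp (-1 : ℤ)) < 1 by
      rw [← exp_zero, exp_lt_exp]; omega))
    change Valued.v (algebraMap K (v.adicCompletion K) (r : K) - (y : v.adicCompletion K)) ≤ _
    rw [← sub_add_sub_cancel _ (algebraMap K (v.adicCompletion K) (b : K))]
    refine Valuation.map_add_le _ ?_ (by simpa using hb)
    rw [← map_sub, valued_algebraMap]
    simpa using hr r (by simp)
  rw [residueCard, ← Nat.card_congr (RingHom.quotientKerEquivOfSurjective hsurj).toEquiv, hker]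

/-- The valuation of a uniformizer is `exp (-1)`. -/
theorem valued_uniformizer {π : v.adicCompletionIntegers K} (hπ : Irreducible π) :
    Valued.v (π : v.adicCompletion K) = exp (-1 : ℤ) := by
  refine le_antisymm (valued_uniformizer_le hπ) ?_
  set t : v.adicCompletion K := algebraMap K (v.adicCompletion K) (FA.ArtinRec.unif v : K)
  have ht : Valued.v t = exp (-1 : ℤ) := FA.Ideles.valued_localEmb_unif v
  have hmem : t ∈ v.adicCompletionIntegers K := by
    rw [HeightOneSpectrum.mem_adicCompletionIntegers, ht, ← exp_zero, exp_le_exp]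
    omega
  have hm : (⟨t, hmem⟩ : v.adicCompletionIntegers K) ∈
      maximalIdeal (v.adicCompletionIntegers K) := by
    rw [IsLocalRing.mem_maximalIdeal, mem_nonunits_iff,
      HeightOneSpectrum.adicCompletionIntegers.isUnit_iff_valued_eq_one]
    change Valued.v t ≠ 1
    rw [ht, ← exp_zero, Ne, exp_inj]
    omega
  rw [hπ.maximalIdeal_eq, Ideal.mem_span_singleton'] at hm
  obtain ⟨c, hc⟩ := hm
  have hc' : (c : v.adicCompletion K) * π = t := congrArg Subtype.val hc
  rw [← ht, ← hc', map_mul]
  exact mul_le_of_le_one_left zero_le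
    ((HeightOneSpectrum.mem_adicCompletionIntegers (𝓞 K) K v).1 c.2)

/-- **On roots of unity prime to the residue characteristic the reciprocity map is a power of the
arithmetic Frobenius.** -/
theorem localAbArtin_rootOfUnity {z : (v.adicCompletion K)ˣ} {i : ℕ}
    (hz : Valued.v (z : v.adicCompletion K) = exp (-(i : ℤ))) {N : ℕ}
    (hNv : (N : 𝓞 K) ∉ v.asIdeal) {x : abClosure (v.adicCompletion K)} (hx : x ^ N = 1) :
    localAbArtin v z x = x ^ residueCard (v.adicCompletionIntegers K) ^ i := by
  have hN : NeZero N := ⟨by rintro rfl; simp at hNv⟩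
  have : IsAbelianGalois K (CyclotomicField N K) :=
    IsCyclotomicExtension.isAbelianGalois {N} K (CyclotomicField N K)
  have : NumberField (CyclotomicField N K) := IsCyclotomicExtension.numberField {N} K _
  obtain ⟨g⟩ := exists_algHom_maxAbelian (K := K) (CyclotomicField N K)
  set ζ₀ : maxAbelian K := g (IsCyclotomicExtension.zeta N K (CyclotomicField N K))
  have hζ₀ : IsPrimitiveRoot ζ₀ N :=
    (IsCyclotomicExtension.zeta_spec N K (CyclotomicField N K)).map_of_injective g.injective
  set L := IntermediateField.adjoin K ({ζ₀} : Set (maxAbelian K))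
  have : FiniteDimensional K L := finite_adjoin _ (Set.finite_singleton ζ₀)
  have : NumberField L := NumberField.of_module_finite K L
  have hζL : ζ₀ ∈ L := IntermediateField.mem_adjoin_simple_self K ζ₀
  -- the integer `ζ₀`
  set ζI : 𝓞 L := ⟨⟨ζ₀, hζL⟩, ⟨Polynomial.X ^ N - 1, Polynomial.monic_X_pow_sub_C 1 hN.out,
    Subtype.ext (by simp [hζ₀.pow_eq_one])⟩⟩
  have hζI : ζI ^ N = 1 := RingOfIntegers.ext (Subtype.ext hζ₀.pow_eq_one)
  have hNQ : ∀ {Q : HeightOneSpectrum (𝓞 L)}, belowP K Q = v → (N : 𝓞 L) ∉ Q.asIdeal :=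
    fun {Q} hQ h => hNv (by
      rw [← hQ]
      show (N : 𝓞 K) ∈ Q.asIdeal.under (𝓞 K)
      rw [Ideal.under_def, Ideal.mem_comap, map_natCast]
      exact h)
  -- unramified
  have hram : ¬ IsRam L v := by
    rintro ⟨Q, hQ, hne⟩
    have := Q.isPrime
    refine hne ((Subgroup.eq_bot_iff_forall _).2 fun τ hτ => ?_)
    have h1 : τ • ζI - ζI ∈ Q.asIdeal := hτ ζI
    obtain ⟨c, hc⟩ : ∃ c : 𝓞 L, τ • ζI = c * ζI :=
      ⟨τ • ζI * ζI ^ (N - 1), by
        rw [mul_assoc, ← pow_succ, Nat.sub_add_cancel (Nat.one_le_iff_ne_zero.2 hN.out), hζI,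
          mul_one]⟩
    have hcN : c ^ N = 1 := by
      have h2 : (τ • ζI) ^ N = 1 := by rw [← smul_pow', hζI, smul_one]
      rwa [hc, mul_pow, hζI, mul_one] at h2
    rw [hc, ← sub_one_mul] at h1
    have hu : ζI ∉ Q.asIdeal := fun h => Q.isPrime.ne_top ((Ideal.eq_top_iff_one _).2
      (hζI ▸ Ideal.pow_mem_of_mem _ h N (Nat.pos_of_ne_zero hN.out)))
    have hc1 : c = 1 := by
      by_contra hne'
      have h3 := (Q.isPrime.mem_or_mem h1).resolve_right hu
      have hs : ∑ j ∈ Finset.range N, c ^ j = 0 := by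
        have h4 := geom_sum_mul c N
        rw [hcN, sub_self] at h4
        exact (mul_eq_zero.1 h4).resolve_right (sub_ne_zero.2 hne')
      refine hNQ hQ ?_
      rw [show (N : 𝓞 L) = -∑ j ∈ Finset.range N, (c ^ j - 1) by
        rw [Finset.sum_sub_distrib, hs, Finset.sum_const, Finset.card_range, nsmul_one, zero_sub,
          neg_neg]]
      exact neg_mem (sum_mem fun j _ => by
        rw [← geom_sum_mul]; exact Q.asIdeal.mul_mem_left _ h3)
    rw [hc1, one_mul] at hc
    refine AlgEquiv.coe_toAlgHom_injective (IntermediateField.algHom_ext_of_eq_adjoin K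
      (rfl : L = _) ?_)
    intro y hy
    obtain rfl := Set.mem_singleton_iff.1 hy
    exact congrArg (fun y : 𝓞 L => (y : L)) hc
  -- the Frobenius
  set q := residueCard (v.adicCompletionIntegers K) with hq
  obtain ⟨Q, hQ, hτ⟩ := artinAt_spec (L := L) v
  have hfrob : artinAt L v ⟨ζ₀, hζL⟩ = (⟨ζ₀, hζL⟩ : L) ^ q := by
    have h := AlgHom.IsArithFrobAt.apply_of_pow_eq_one hτ hζI (hNQ hQ)
    rw [show Nat.card (𝓞 K ⧸ Q.asIdeal.under (𝓞 K)) = q by
      rw [hq, residueCard_completion, ← hQ]; rfl] at h
    exact congrArg (fun y : 𝓞 L => (y : L)) h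
  have hpow : ∀ j : ℕ, (artinAt L v ^ j) ⟨ζ₀, hζL⟩ = (⟨ζ₀, hζL⟩ : L) ^ q ^ j := by
    intro j
    induction j with
    | zero => simp
    | succ j ih => rw [pow_succ', AlgEquiv.mul_apply, ih, map_pow, hfrob, ← pow_mul, pow_succ]; ring
  have hA : artinAbel (maxAbelian K) (single v z) ζ₀ = ζ₀ ^ q ^ i := by
    rw [show artinAbel (maxAbelian K) (single v z) ζ₀ =
      ((AlgEquiv.restrictNormalHom L (artinAbel (maxAbelian K) (single v z)) ⟨ζ₀, hζL⟩ : L) :
        maxAbelian K) from (AlgEquiv.restrictNormal_commutes _ L ⟨ζ₀, hζL⟩).symm,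
      artinAbel_restrict L, artinIdele_single, localArtin_of_not_isRam hram hz, zpow_natCast, hpow]
    rfl
  -- transfer
  set y : abClosure (v.adicCompletion K) := ⟨globalEmb v ζ₀, globalEmb_mem v ζ₀⟩
  have hy : IsPrimitiveRoot y N := by
    refine IsPrimitiveRoot.of_map_of_injective (f := (abClosure (v.adicCompletion K)).val) ?_
      (RingHom.injective _)
    exact hζ₀.map_of_injective (globalEmb v).injective
  obtain ⟨j, -, rfl⟩ := hy.eq_pow_of_pow_eq_one hx
  rw [map_pow, localAbArtin_apply, ← pow_mul, mul_comm, pow_mul]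
  congr 1
  exact Subtype.ext ((congrArg (globalEmb v) hA).trans (map_pow _ _ _))

end Fermat.Agent.LubinTate
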