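import Fermat.Agent.LubinTate.Explicit.KroneckerWeber
import Fermat.Agent.LubinTate.Reciprocity.Action
import Fermat.Agent.LubinTate.Reciprocity.Frobenius
import Mathlib.Analysis.Normed.Unbundled.SpectralNorm

/-!
# The explicit reciprocity law of Lubin and Tate

The reciprocity map of `K_v` sends a uniformizer to the arithmetic Frobenius on the roots of unity
prime to the residue characteristic and the identity on the torsion of the group it defines, and a
unit `u` to multiplication by `u⁻¹` on the torsion. These properties determine it, and the field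
generated by the torsion and those roots of unity does not depend on the uniformizer.
-/

set_option autoImplicit false

noncomputable section

open NumberField IsDedekindDomain IsLocalRing WithZero Polynomial
open FA.LocalCFT
open scoped Valued

namespace Fermat.Agent.LubinTate

universe u

attribute [local instance] FA.QuadFormsNF.charZero_completion

variable {K : Type u} [Field K] [NumberField K] {v : HeightOneSpectrum (𝓞 K)}

local notation "Kv" => HeightOneSpectrum.adicCompletion K v
local notation "Ov" => HeightOneSpectrum.adicCompletionIntegers K v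

theorem natCast_pow_sub_one_notMem {m : ℕ} (hm : 0 < m) :
    ((residueCard Ov ^ m - 1 : ℕ) : 𝓞 K) ∉ v.asIdeal := by
  have hq : (residueCard Ov : 𝓞 K) ∈ v.asIdeal := by
    rw [residueCard_completion, ← Submodule.cardQuot_apply, ← Ideal.absNorm_apply]
    exact Ideal.absNorm_mem v.asIdeal
  intro h
  refine v.isPrime.ne_top ((Ideal.eq_top_iff_one _).2 ?_)
  have hpos : 1 ≤ residueCard Ov ^ m := Nat.one_le_pow _ _ Nat.card_pos
  rw [Nat.cast_sub hpos, Nat.cast_one, Nat.cast_pow] at h
  simpa using sub_mem (Ideal.pow_mem_of_mem _ hq m hm) h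

/-- The reciprocity map on roots of unity of order `q ^ m - 1`. -/
theorem localAbArtin_rootOfUnity_pow {z : Kvˣ} {i : ℕ}
    (hz : Valued.v (z : Kv) = exp (-(i : ℤ))) {m : ℕ} (hm : 0 < m) {x : abClosure Kv}
    (hx : x ^ (residueCard Ov ^ m - 1) = 1) : localAbArtin v z x = x ^ residueCard Ov ^ i :=
  localAbArtin_rootOfUnity v hz (natCast_pow_sub_one_notMem hm) hx

theorem exists_absoluteValue :
    ∃ ν : AbsoluteValue (AlgebraicClosure Kv) ℝ, IsNonarchimedean ν ∧
      (∀ a : Ov, ν (algebraMap _ _ a) ≤ 1) ∧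
      (∀ {π : Ov}, Irreducible π → ν (algebraMap _ _ π) < 1) ∧
      ∀ (σ : AlgebraicClosure Kv ≃ₐ[Kv]
        AlgebraicClosure Kv) x, ν (σ x) = ν x := by
  let f := spectralMulAlgNorm Kv (AlgebraicClosure Kv)
  let ν : AbsoluteValue (AlgebraicClosure Kv) ℝ :=
    { toFun := fun x => f x
      map_mul' := map_mul f
      nonneg' := fun x => apply_nonneg f x
      eq_zero' := fun x => map_eq_zero_iff_eq_zero f
      add_le' := map_add_le_add f }
  have hν : ∀ a : Ov,
      ν (algebraMap _ _ a) = ‖(a : Kv)‖ := fun a =>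
    spectralNorm_extends (a : Kv)
  refine ⟨ν, isNonarchimedean_spectralNorm, fun a => ?_, fun {π} hπ => ?_,
    fun σ x => (spectralNorm_eq_of_equiv σ x).symm⟩
  · rw [hν]
    exact Valued.toNormedField.norm_le_one_iff.2
      ((HeightOneSpectrum.mem_adicCompletionIntegers (𝓞 K) K v).1 a.2)
  · rw [hν]
    refine Valued.toNormedField.norm_lt_one_iff.2 ?_
    rw [valued_uniformizer v hπ, ← exp_zero, exp_lt_exp]
    omega

variable {π : v.adicCompletionIntegers K} (hπ : Irreducible π) {πK : (v.adicCompletion K)ˣ}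
  (hπK : (πK : v.adicCompletion K) = algebraMap _ (v.adicCompletion K) π)
include hπ hπK

/-- **A uniformizer fixes the torsion of its group.** -/
theorem localAbArtin_uniformizer_torsion (k : ℕ) {L : Type*} [Field L] [Algebra Kv L]
    [Algebra Ov L] [IsScalarTower Ov Kv L] {lam : L} (hlam : IsTorsionGenerator Kv π k lam)
    (ι : L →ₐ[Kv] abClosure Kv) (x : L) : localAbArtin v πK (ι x) = ι x := by
  have := finiteDimensional hπ k hlam
  have : FiniteDimensional Kv ι.fieldRange :=
    (AlgEquiv.ofInjectiveField ι).toLinearEquiv.finiteDimensional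
  have hfix := (localAbArtin_mem_fixing_iff v ι.fieldRange πK).2 (by
    rw [← normGroup_congr (AlgEquiv.ofInjectiveField ι), normGroup_torsion hπ hπK k hlam]
    exact mem_normTarget.2 ⟨1, 1, by simp, by simp⟩)
  exact (IntermediateField.mem_fixingSubgroup_iff _ _).1 hfix _ (AlgHom.mem_fieldRange.2 ⟨x, rfl⟩)

omit hπK in
/-- The torsion extensions embed in the maximal abelian extension. -/
theorem exists_algHom_abClosure (k : ℕ) {L : Type*} [Field L] [Algebra Kv L] [Algebra Ov L]
    [IsScalarTower Ov Kv L] {lam : L} (hlam : IsTorsionGenerator Kv π k lam) :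
    Nonempty (L →ₐ[Kv] abClosure Kv) := by
  have := finiteDimensional hπ k hlam
  have := isAbelianGalois_torsion hπ k hlam
  let j : L →ₐ[Kv] AlgebraicClosure Kv := IsAlgClosed.lift
  have hle : j.fieldRange ≤ abClosure Kv :=
    le_abClosure (AlgEquiv.ofInjectiveField j).toLinearEquiv.finiteDimensional
      (IsAbelianGalois.of_algHom (AlgEquiv.ofInjectiveField j).symm.toAlgHom)
  exact ⟨(IntermediateField.inclusion hle).comp (AlgEquiv.ofInjectiveField j).toAlgHom⟩

/-- A root of an iterate of `π X + X ^ q` lies in the maximal abelian extension and is fixed by the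
image of `π`. -/
theorem exists_fixed_torsion (k : ℕ) {x : AlgebraicClosure Kv}
    (hx : aeval x (iterPoly π (residueCard Ov) (k + 1)) = 0) :
    ∃ hmem : x ∈ abClosure Kv, localAbArtin v πK ⟨x, hmem⟩ = ⟨x, hmem⟩ := by
  set g := (iterPoly π (residueCard Ov) (k + 1)).map (algebraMap Ov Kv) with hg
  obtain ⟨lam, hlam⟩ := exists_torsionGenerator (K := Kv) k hπ
  obtain ⟨ι⟩ := exists_algHom_abClosure hπ k hlam
  let j : g.SplittingField →ₐ[Kv] AlgebraicClosure Kv := (abClosure Kv).val.comp ι
  have hxr : x ∈ g.rootSet (AlgebraicClosure Kv) := by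
    rw [mem_rootSet', aeval_map_algebraMap, Polynomial.map_map]
    exact ⟨((monic_iterPoly (isLubinTateBase hπ).two_le (k + 1)).1.map _).ne_zero, hx⟩
  rw [← (SplittingField.splits g).image_rootSet j] at hxr
  obtain ⟨y, -, rfl⟩ := hxr
  exact ⟨(ι y).2, localAbArtin_uniformizer_torsion hπ hπK k hlam ι y⟩

/-- A lift of the image of a uniformizer is the Frobenius on roots of unity. -/
theorem lift_uniformizer_rootOfUnity
    {τ : AlgebraicClosure Kv ≃ₐ[Kv]
      AlgebraicClosure Kv}
    (hτ : ∀ y : abClosure Kv, τ (y : AlgebraicClosure Kv) =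
      (localAbArtin v πK y : AlgebraicClosure Kv))
    {m : ℕ} (hm : 0 < m) {ζ : AlgebraicClosure Kv}
    (hζ : ζ ^ (residueCard Ov ^ m - 1) = 1) :
    τ ζ = ζ ^ residueCard Ov := by
  have hmem : ζ ∈ abClosure Kv := by
    rw [abClosure_explicit hπ hπK]
    exact IntermediateField.subset_adjoin _ _ (Or.inr ⟨m, hm, hζ⟩)
  set x : abClosure Kv := ⟨ζ, hmem⟩ with hxdef
  have hx : x ^ (residueCard Ov ^ m - 1) = 1 := by
    apply Subtype.ext
    rw [SubmonoidClass.coe_pow, OneMemClass.coe_one]
    exact hζ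
  have hval : Valued.v (πK : Kv) = exp (-((1 : ℕ) : ℤ)) := by
    rw [hπK, Nat.cast_one]
    exact valued_uniformizer v hπ
  have h : localAbArtin v πK x = x ^ residueCard Ov ^ 1 :=
    localAbArtin_rootOfUnity_pow (v := v) (i := 1) hval hm hx
  rw [pow_one] at h
  have h2 : (localAbArtin v πK x : AlgebraicClosure Kv) =
      (x : AlgebraicClosure Kv) ^ residueCard Ov := by
    rw [h, SubmonoidClass.coe_pow]
  exact (hτ x).trans h2

omit hπK in
/-- **A unit `u` acts on the torsion as `[u⁻¹]`.** -/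
theorem localAbArtin_unit_torsion (u : Ovˣ) (k : ℕ) {L : Type*} [Field L] [Algebra Kv L]
    [Algebra Ov L] [IsScalarTower Ov Kv L] {lam : L} (hlam : IsTorsionGenerator Kv π k lam)
    (ι : L →ₐ[Kv] abClosure Kv) (x : L) :
    localAbArtin v (Units.map (algebraMap Ov Kv).toMonoidHom u) (ι x) =
      ι (torsionAut hπ k hlam u⁻¹ x) := by
  set uK := Units.map (algebraMap Ov Kv).toMonoidHom u
  have hπ0 : algebraMap Ov Kv π ≠ 0 :=
    (map_ne_zero_iff _ (IsFractionRing.injective Ov Kv)).2 hπ.ne_zero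
  set πK := Units.mk0 _ hπ0
  have hπ' : Irreducible (π * u) := (irreducible_mul_units u).2 hπ
  have hπK' : ((uK * πK : Kvˣ) : Kv) = algebraMap Ov Kv (π * u) := by
    rw [map_mul, mul_comm (algebraMap Ov Kv π)]
    rfl
  suffices h : (localAbArtin v uK).toAlgHom.comp ι =
      ι.comp (torsionAut hπ k hlam u⁻¹).toAlgHom from DFunLike.congr_fun h x
  refine (torsionBasis hπ k hlam).algHom_ext ?_
  change localAbArtin v uK (ι lam) = ι (torsionAut hπ k hlam u⁻¹ lam)
  have hlamu : torsionAut hπ k hlam u⁻¹ lam = torsionPoint hπ k hlam ((u⁻¹ : _ˣ) : _) :=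
    torsionAlgHom_lam hπ k hlam u⁻¹
  rw [hlamu]
  obtain ⟨τ, hτ⟩ := AlgEquiv.restrictNormalHom_surjective
    (AlgebraicClosure Kv) (localAbArtin v (uK * πK))
  have hτ' : ∀ y : abClosure Kv, τ (y : AlgebraicClosure Kv) =
      (localAbArtin v (uK * πK) y : AlgebraicClosure Kv) := fun y => by
    rw [← hτ]
    exact (AlgEquiv.restrictNormal_commutes τ (abClosure Kv) y).symm
  obtain ⟨ν, hna, hle, hlt, hσ⟩ := exists_absoluteValue (v := v)
  have hact := apply_torsion_generator hπ k hlam (C := AlgebraicClosure Kv) hna hle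
    (((abClosure Kv).val.comp ι).restrictScalars Ov) (hlt hπ) u (τ.toAlgHom.restrictScalars Ov)
    (hσ τ) (fun y hy => by
      obtain ⟨hmem, hfix⟩ := exists_fixed_torsion hπ' hπK' k hy
      exact (hτ' ⟨y, hmem⟩).trans (congrArg Subtype.val hfix))
    (fun m hm ζ hζ => lift_uniformizer_rootOfUnity hπ' hπK' hτ' hm hζ)
  have hfix := localAbArtin_uniformizer_torsion hπ (πK := πK) rfl k hlam ι lam
  have h1 : localAbArtin v (uK * πK) (ι lam) = localAbArtin v uK (ι lam) := by
    rw [map_mul, AlgEquiv.mul_apply, hfix]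
  rw [← h1]
  exact Subtype.ext ((hτ' (ι lam)).symm.trans hact)

/-- **The explicit reciprocity law on the torsion.** -/
theorem localAbArtin_torsion (j : ℤ) (u : Ovˣ) (k : ℕ) {L : Type*} [Field L] [Algebra Kv L]
    [Algebra Ov L] [IsScalarTower Ov Kv L] {lam : L} (hlam : IsTorsionGenerator Kv π k lam)
    (ι : L →ₐ[Kv] abClosure Kv) (x : L) :
    localAbArtin v (πK ^ j * Units.map (algebraMap Ov Kv).toMonoidHom u) (ι x) =
      ι (torsionAut hπ k hlam u⁻¹ x) := by
  rw [map_mul, AlgEquiv.mul_apply, localAbArtin_unit_torsion hπ u k hlam ι x, map_zpow]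
  have h : localAbArtin v πK ∈ MulAction.stabilizer (abClosure Kv ≃ₐ[Kv] abClosure Kv)
      (ι (torsionAut hπ k hlam u⁻¹ x)) :=
    localAbArtin_uniformizer_torsion hπ hπK k hlam ι _
  exact zpow_mem h j

/-- **Independence of the uniformizer**: the torsion of either group generates the same field
together with the roots of unity of order prime to the residue characteristic. -/
theorem adjoin_torsion_eq {π' : Ov} (hπ' : Irreducible π') :
    IntermediateField.adjoin Kv {x : AlgebraicClosure Kv |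
        (∃ k : ℕ, aeval x ((iterPoly π (residueCard Ov) (k + 1)).map (algebraMap Ov Kv)) = 0) ∨
        ∃ m : ℕ, 0 < m ∧ x ^ (residueCard Ov ^ m - 1) = 1} =
      IntermediateField.adjoin Kv {x : AlgebraicClosure Kv |
        (∃ k : ℕ, aeval x ((iterPoly π' (residueCard Ov) (k + 1)).map (algebraMap Ov Kv)) = 0) ∨
        ∃ m : ℕ, 0 < m ∧ x ^ (residueCard Ov ^ m - 1) = 1} := by
  rw [← abClosure_explicit hπ hπK,
    ← abClosure_explicit hπ' (πK := Units.mk0 _
      ((map_ne_zero_iff _ (IsFractionRing.injective Ov Kv)).2 hπ'.ne_zero)) rfl]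

omit hπ hπK in
/-- The norm target does not depend on the uniformizer when `u ^ m ≡ 1` modulo `π ^ n`. -/
theorem normTarget_mul_unit {u : Ovˣ} {m n : ℕ}
    (hu : (u : Ov) ^ m - 1 ∈ Ideal.span {π ^ n}) :
    normTarget (π * u) ((πK * Units.map (algebraMap Ov Kv).toMonoidHom u) ^ m) n =
      normTarget π (πK ^ m) n := by
  have hspan : Ideal.span {(π * u) ^ n} = Ideal.span {π ^ n} := by
    rw [mul_pow, Ideal.span_singleton_eq_span_singleton]
    exact ⟨(u ^ n)⁻¹, by
      rw [mul_assoc, ← Units.val_pow_eq_pow_val, Units.mul_inv, mul_one]⟩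
  have hsame : higherUnits (π * u) n = higherUnits π n := by
    ext w
    rw [mem_higherUnits, mem_higherUnits, hspan]
  have hmem : u ^ m ∈ higherUnits π n := by
    rw [mem_higherUnits, Units.val_pow_eq_pow_val]
    exact hu
  have hU : Units.map (algebraMap Ov Kv).toMonoidHom (u ^ m) ∈
      (higherUnits π n).map (Units.map (algebraMap Ov Kv).toMonoidHom) :=
    Subgroup.mem_map_of_mem _ hmem
  rw [normTarget, normTarget, hsame, mul_pow, ← map_pow]
  refine le_antisymm (sup_le ?_ le_sup_right) (sup_le ?_ le_sup_right)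
  · rw [Subgroup.zpowers_le]
    exact mul_mem (Subgroup.mem_sup_left (Subgroup.mem_zpowers _)) (Subgroup.mem_sup_right hU)
  · rw [Subgroup.zpowers_le]
    have h := mul_mem (Subgroup.mem_sup_left (Subgroup.mem_zpowers
      (πK ^ m * Units.map (algebraMap Ov Kv).toMonoidHom (u ^ m))))
      (inv_mem (Subgroup.mem_sup_right (S := Subgroup.zpowers
        (πK ^ m * Units.map (algebraMap Ov Kv).toMonoidHom (u ^ m))) hU))
    rwa [mul_inv_cancel_right] at h

/-- **Independence at finite level**: the explicit extensions of `π` and `π u` coincide when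
`u ^ m ≡ 1` modulo `π ^ (k + 1)`. -/
theorem nonempty_algEquiv_explicit {u : Ovˣ} {m : ℕ} (hm : 0 < m) (k : ℕ)
    (hu : (u : Ov) ^ m - 1 ∈ Ideal.span {π ^ (k + 1)}) :
    Nonempty ((explicitPoly (π * (u : Ov)) m k).SplittingField ≃ₐ[Kv]
      (explicitPoly π m k).SplittingField) := by
  have hπ' : Irreducible (π * u) := (irreducible_mul_units u).2 hπ
  have hπK' : ((πK * Units.map (algebraMap Ov Kv).toMonoidHom u : Kvˣ) : Kv) =
      algebraMap Ov Kv (π * u) := by
    rw [map_mul, Units.val_mul, hπK]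
    rfl
  obtain ⟨hab, hn⟩ := normGroup_explicit hπ hπK hm k
  obtain ⟨hab', hn'⟩ := normGroup_explicit hπ' hπK' hm k
  rw [normTarget_mul_unit hu] at hn'
  obtain ⟨f⟩ := nonempty_algHom_of_normGroup_le v (explicitPoly π m k).SplittingField
    (explicitPoly (π * (u : Ov)) m k).SplittingField (hn.trans hn'.symm).le
  obtain ⟨g⟩ := nonempty_algHom_of_normGroup_le v (explicitPoly (π * (u : Ov)) m k).SplittingField
    (explicitPoly π m k).SplittingField (hn'.trans hn.symm).le
  exact ⟨AlgEquiv.ofBijective f (Algebra.IsAlgebraic.algHom_bijective₂ f g).1⟩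

/-- An automorphism is determined on the torsion and the roots of unity. -/
theorem autEq_of_explicit {τ τ' : abClosure Kv ≃ₐ[Kv] abClosure Kv}
    (h1 : ∀ (k : ℕ) (x : abClosure Kv), aeval x (iterPoly π (residueCard Ov) (k + 1)) = 0 →
      τ x = τ' x)
    (h2 : ∀ (m : ℕ) (x : abClosure Kv), 0 < m → x ^ (residueCard Ov ^ m - 1) = 1 → τ x = τ' x) :
    τ = τ' := by
  refine AlgEquiv.ext fun x => ?_
  obtain ⟨x, hx⟩ := x
  have hle : IntermediateField.adjoin Kv {y : AlgebraicClosure Kv |
      (∃ k : ℕ, aeval y ((iterPoly π (residueCard Ov) (k + 1)).map (algebraMap Ov Kv)) = 0) ∨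
        ∃ m : ℕ, 0 < m ∧ y ^ (residueCard Ov ^ m - 1) = 1} ≤
      IntermediateField.lift
        (IntermediateField.fixedField (Subgroup.zpowers (τ'⁻¹ * τ))) := by
    refine IntermediateField.adjoin_le_iff.2 fun y hy => ?_
    have hy' : y ∈ abClosure Kv := by
      rw [abClosure_explicit hπ hπK]
      exact IntermediateField.subset_adjoin _ _ hy
    refine (IntermediateField.mem_lift (⟨y, hy'⟩ : abClosure Kv)).2
      ((IntermediateField.mem_fixedField_iff _ _).2 fun g hg => ?_)
    have hfix : τ'⁻¹ * τ ∈ MulAction.stabilizer (abClosure Kv ≃ₐ[Kv] abClosure Kv)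
        (⟨y, hy'⟩ : abClosure Kv) := by
      change τ'.symm (τ ⟨y, hy'⟩) = _
      rw [AlgEquiv.symm_apply_eq]
      rcases hy with ⟨k, hk⟩ | ⟨m, hm, hk⟩
      · refine h1 k _ ((abClosure Kv).val.restrictScalars Ov |>.toRingHom.injective ?_)
        rw [map_zero]
        change (abClosure Kv).val.restrictScalars Ov _ = 0
        rw [← aeval_algHom_apply, ← aeval_map_algebraMap Kv]
        exact hk
      · exact h2 m _ hm (Subtype.ext hk)
    exact Subgroup.zpowers_le.2 hfix hg
  have hfix := (IntermediateField.mem_fixedField_iff _ _).1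
    ((IntermediateField.mem_lift (⟨x, hx⟩ : abClosure Kv)).1
      (hle (abClosure_explicit hπ hπK ▸ hx))) _ (Subgroup.mem_zpowers _)
  exact (τ'.symm_apply_eq).1 hfix

omit hπ hπK in
/-- **Characterisation**: a homomorphism sending every uniformizer to the arithmetic Frobenius on
roots of unity and to the identity on the torsion of its group is the reciprocity map. -/
theorem eq_localAbArtin {r : Kvˣ →* (abClosure Kv ≃ₐ[Kv] abClosure Kv)}
    (hfrob : ∀ ϖ : Ov, Irreducible ϖ → ∀ ϖK : Kvˣ, (ϖK : Kv) = algebraMap Ov Kv ϖ →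
      ∀ (m : ℕ) (x : abClosure Kv), 0 < m → x ^ (residueCard Ov ^ m - 1) = 1 →
        r ϖK x = x ^ residueCard Ov)
    (htor : ∀ ϖ : Ov, Irreducible ϖ → ∀ ϖK : Kvˣ, (ϖK : Kv) = algebraMap Ov Kv ϖ →
      ∀ (k : ℕ) (x : abClosure Kv), aeval x (iterPoly ϖ (residueCard Ov) (k + 1)) = 0 →
        r ϖK x = x) :
    r = localAbArtin v := by
  have hunif : ∀ ϖ : Ov, Irreducible ϖ → ∀ ϖK : Kvˣ, (ϖK : Kv) = algebraMap Ov Kv ϖ →
      r ϖK = localAbArtin v ϖK := by
    intro ϖ hϖ ϖK hϖK
    refine autEq_of_explicit hϖ hϖK (fun k x hx => ?_) fun m x hm hx => ?_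
    · rw [htor ϖ hϖ ϖK hϖK k x hx]
      have h : aeval (x : AlgebraicClosure Kv) (iterPoly ϖ (residueCard Ov) (k + 1)) = 0 := by
        change aeval ((abClosure Kv).val.restrictScalars Ov x) _ = 0
        rw [aeval_algHom_apply, hx, map_zero]
      obtain ⟨hmem, hf⟩ := exists_fixed_torsion hϖ hϖK k h
      exact hf.symm
    · rw [hfrob ϖ hϖ ϖK hϖK m x hm hx, localAbArtin_rootOfUnity_pow (i := 1) ?_ hm hx, pow_one]
      rw [hϖK, Nat.cast_one]
      exact valued_uniformizer v hϖ
  refine MonoidHom.ext fun z => ?_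
  obtain ⟨ϖ, hϖ⟩ := IsDiscreteValuationRing.exists_irreducible Ov
  set ϖK : Kvˣ := Units.mk0 _
    ((map_ne_zero_iff _ (IsFractionRing.injective Ov Kv)).2 hϖ.ne_zero)
  obtain ⟨j, u, rfl⟩ := exists_zpow_mul_unit hϖ (πK := ϖK) rfl z
  have h2 := hunif (ϖ * u) ((irreducible_mul_units u).2 hϖ)
    (ϖK * Units.map (algebraMap Ov Kv).toMonoidHom u) (map_mul _ _ _).symm
  rw [show ϖK ^ j * Units.map (algebraMap Ov Kv).toMonoidHom u =
    ϖK ^ (j - 1) * (ϖK * Units.map (algebraMap Ov Kv).toMonoidHom u) by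
      rw [← mul_assoc, zpow_sub_one, inv_mul_cancel_right],
    map_mul, map_mul (localAbArtin v), map_zpow, map_zpow, hunif ϖ hϖ ϖK rfl, h2]

end Fermat.Agent.LubinTate
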